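/-
S18 / wave 4 (helper29): pure algebra for the count inside `F`:
* truncated `m`-th roots of `1 + w` in any commutative ring in which `m` is invertible;
* the cofactor `∑ a^i b^(m-1-i)` is `≡ m a^(m-1)` when `b ≡ a`;
* `m`-th roots of one-units of a valuation ring of an algebraically closed field.
-/
import Mathlib

set_option autoImplicit false

noncomputable section

namespace Fermat.Agent.S18.H29

open Finset

section Approx

variable {R : Type*} [CommRing R]

theorem exists_add_pow_succ (a δ : R) (m : ℕ) :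
    ∃ k : R, (a + δ) ^ (m + 1) = a ^ (m + 1) + ((m + 1 : ℕ) : R) * a ^ m * δ + δ ^ 2 * k := by
  induction m with
  | zero => exact ⟨0, by simp⟩
  | succ m ih =>
    obtain ⟨k, hk⟩ := ih
    refine ⟨((m + 1 : ℕ) : R) * a ^ m + k * (a + δ), ?_⟩
    rw [pow_succ, hk]
    push_cast
    ring

/-- Truncated `m`-th roots of `1 + w`: `(1 + w G')^m = 1 + w + w^(N+1) e`. -/
theorem exists_approx_root (m : ℕ) (hm : m ≠ 0) (minv : R) (hinv : (m : R) * minv = 1)
    (w : R) (N : ℕ) : ∃ G' e : R, (1 + w * G') ^ m = 1 + w + w ^ (N + 1) * e := by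
  obtain ⟨m', rfl⟩ := Nat.exists_eq_succ_of_ne_zero hm
  induction N with
  | zero => exact ⟨0, -1, by simp⟩
  | succ N ih =>
    obtain ⟨G', e, h⟩ := ih
    set G : R := 1 + w * G' with hG
    obtain ⟨k, hk⟩ := exists_add_pow_succ G (-(minv * w ^ (N + 1) * e)) m'
    obtain ⟨q, hq⟩ := sub_dvd_pow_sub_pow G 1 m'
    rw [one_pow] at hq
    have hG1 : G - 1 = w * G' := by rw [hG]; ring
    have hGm : G ^ m' = 1 + w * G' * q := by rw [← hG1, ← hq]; ring
    refine ⟨G' - minv * w ^ N * e, -(e * G' * q) + w ^ N * minv ^ 2 * e ^ 2 * k, ?_⟩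
    have e1 : 1 + w * (G' - minv * w ^ N * e) = G + -(minv * w ^ (N + 1) * e) := by
      rw [hG]; ring
    rw [e1, hk, h, hGm]
    have hinv' : ((m' + 1 : ℕ) : R) * minv = 1 := hinv
    linear_combination (-(1 + w * G' * q) * w ^ (N + 1) * e) * hinv'

end Approx

section Val

variable {F : Type*} [Field F] {Γ : Type*} [LinearOrderedCommGroupWithZero Γ] (v : Valuation F Γ)

theorem val_pow_sub_pow_lt {a b : F} (ha : v a ≤ 1) (hb : v b ≤ 1) (hab : v (b - a) < 1) (j : ℕ) :
    v (b ^ j - a ^ j) < 1 := by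
  rw [← geom_sum₂_mul, map_mul, mul_comm]
  refine mul_lt_one_of_lt_of_le hab ?_
  refine v.map_sum_le fun i _ => ?_
  rw [map_mul, map_pow, map_pow]
  exact mul_le_one' (pow_le_one' hb _) (pow_le_one' ha _)

/-- The cofactor of `a - b` in `a^m - b^m` is `≡ m a^(m-1)` when `b ≡ a`. -/
theorem val_geom_sum₂_sub_lt {a b : F} (ha : v a ≤ 1) (hb : v b ≤ 1) (hab : v (b - a) < 1)
    (m : ℕ) :
    v ((∑ i ∈ range m, a ^ i * b ^ (m - 1 - i)) - (m : F) * a ^ (m - 1)) < 1 := by
  have e : (∑ i ∈ range m, a ^ i * b ^ (m - 1 - i)) - (m : F) * a ^ (m - 1) =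
      ∑ i ∈ range m, a ^ i * (b ^ (m - 1 - i) - a ^ (m - 1 - i)) := by
    have h2 : ∀ i ∈ range m, a ^ i * (b ^ (m - 1 - i) - a ^ (m - 1 - i)) =
        a ^ i * b ^ (m - 1 - i) - a ^ (m - 1) := by
      intro i hi
      have hi' : i ≤ m - 1 := by have := mem_range.mp hi; omega
      rw [mul_sub, ← pow_add, Nat.add_sub_cancel' hi']
    rw [sum_congr rfl h2, sum_sub_distrib, sum_const, card_range, nsmul_eq_mul]
  rw [e]
  refine v.map_sum_lt one_ne_zero fun i _ => ?_
  rw [map_mul, map_pow, mul_comm]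
  exact mul_lt_one_of_lt_of_le (val_pow_sub_pow_lt v ha hb hab _) (pow_le_one' ha _)

end Val

section Root

variable {K : Type*} [Field K] [IsAlgClosed K] (A : ValuationSubring K)

/-- `m`-th roots of one-units: for `a ∈ m_A` there is `t ≡ 1` with `t^m = 1 + a`. -/
theorem exists_root_one_add (m : ℕ) (hm : m ≠ 0) {a : K} (ha : a ∈ A.nonunits) :
    ∃ t : K, t - 1 ∈ A.nonunits ∧ t ^ m = 1 + a := by
  classical
  set q : Polynomial K := Polynomial.X ^ m - Polynomial.C (1 + a) with hq
  have hmonic : q.Monic := Polynomial.monic_X_pow_sub_C _ hm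
  have hsplit : q.Splits := IsAlgClosed.splits q
  have hev : q.eval 1 = -a := by simp [hq]
  have hprod := hsplit.eval_eq_prod_roots_of_monic hmonic 1
  rw [hev] at hprod
  have hlt : A.valuation ((q.roots.map (1 - ·)).prod) < 1 := by
    rw [← hprod, Valuation.map_neg]; exact ha
  have hex : ∃ t ∈ q.roots, A.valuation (1 - t) < 1 := by
    by_contra hcon
    push Not at hcon
    have h1 : 1 ≤ A.valuation ((q.roots.map (1 - ·)).prod) := by
      rw [map_multiset_prod, Multiset.map_map]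
      refine Multiset.one_le_prod_of_one_le ?_
      intro x hx
      obtain ⟨t, ht, rfl⟩ := Multiset.mem_map.mp hx
      exact hcon t ht
    exact absurd hlt (not_lt.mpr h1)
  obtain ⟨t, ht, hlt'⟩ := hex
  refine ⟨t, ?_, ?_⟩
  · show A.valuation (t - 1) < 1
    rwa [Valuation.map_sub_swap]
  · have hroot := (Polynomial.mem_roots hmonic.ne_zero).mp ht
    have : t ^ m - (1 + a) = 0 := by simpa [hq, Polynomial.IsRoot] using hroot
    exact sub_eq_zero.mp this

end Root

end Fermat.Agent.S18.H29
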