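/-
S18 / wave 4 (helper29): basics for the count inside `F` (see `Count.lean`).
* valuation-ring lemmas for `O` (one-units), constants;
* evaluation at a place of degree one;
* divisors of functions and their class degrees.
-/
import Mathlib
import Fermat.Prelude.Def_AlgebraicCurve_DivisorClassGroup
import Fermat.Agent.S24.H52.AddValMore

set_option autoImplicit false

open AlgebraicCurve

noncomputable section

namespace Fermat.Agent.S18.H29

variable {K : Type*} [Field K] {F : Type*} [Field F] [Algebra K F]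

/-! ### One-units of a valuation subring -/

section OU

variable (O : ValuationSubring F)

/-- `y ≡ 1` modulo the maximal ideal of `O`. -/
def IsOU (y : F) : Prop := O.valuation (y - 1) < 1

variable {O}

theorem isOU_iff {y : F} : IsOU O y ↔ y - 1 ∈ O.nonunits :=
  Iff.rfl

theorem IsOU.val {y : F} (h : IsOU O y) : O.valuation y = 1 := by
  have := Valuation.map_one_add_of_lt (v := O.valuation) h
  rwa [add_sub_cancel] at this

theorem IsOU.ne_zero {y : F} (h : IsOU O y) : y ≠ 0 := by
  rintro rfl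
  have := h.val
  simp at this

theorem isOU_one : IsOU O (1 : F) := by simp [IsOU]

theorem IsOU.mul {y z : F} (hy : IsOU O y) (hz : IsOU O z) : IsOU O (y * z) := by
  have e : y * z - 1 = (y - 1) * z + (z - 1) := by ring
  unfold IsOU
  rw [e]
  refine Valuation.map_add_lt _ ?_ hz
  rw [map_mul, hz.val, mul_one]
  exact hy

theorem IsOU.inv {y : F} (hy : IsOU O y) : IsOU O y⁻¹ := by
  have hy0 := hy.ne_zero
  have e : y⁻¹ - 1 = (1 - y) * y⁻¹ := by field_simp
  unfold IsOU
  rw [e, map_mul, map_inv₀, hy.val, inv_one, mul_one, Valuation.map_sub_swap]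
  exact hy

theorem IsOU.div {y z : F} (hy : IsOU O y) (hz : IsOU O z) : IsOU O (y / z) := by
  rw [div_eq_mul_inv]
  exact hy.mul hz.inv

theorem IsOU.pow {y : F} (hy : IsOU O y) (n : ℕ) : IsOU O (y ^ n) := by
  induction n with
  | zero => simpa using isOU_one
  | succ n ih => rw [pow_succ]; exact ih.mul hy

theorem IsOU.zpow {y : F} (hy : IsOU O y) (n : ℤ) : IsOU O (y ^ n) := by
  rcases n with n | n
  · simpa using hy.pow n
  · rw [zpow_negSucc]; exact (hy.pow _).inv

/-- `1 + (small)` is a one-unit. -/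
theorem isOU_one_add {e : F} (he : O.valuation e < 1) : IsOU O (1 + e) := by
  unfold IsOU; rwa [add_sub_cancel_left]

/-- `z = y + (small)` with `y` a unit: `z / y` is a one-unit. -/
theorem isOU_div_of_sub {y z : F} (hy : O.valuation y = 1) (h : O.valuation (z - y) < 1) :
    IsOU O (z / y) := by
  have hy0 : y ≠ 0 := by rintro rfl; simp at hy
  have e : z / y - 1 = (z - y) * y⁻¹ := by field_simp
  unfold IsOU
  rw [e, map_mul, map_inv₀, hy, inv_one, mul_one]
  exact h

theorem val_eq_one_of_sub {y z : F} (hy : O.valuation y = 1) (h : O.valuation (z - y) < 1) :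
    O.valuation z = 1 := by
  have := (isOU_div_of_sub hy h).val
  rwa [map_div₀, hy, div_one] at this

theorem val_le_one_iff {y : F} : O.valuation y ≤ 1 ↔ y ∈ O := O.valuation_le_one_iff y

theorem val_eq_one_iff {y : F} (hy : y ≠ 0) : O.valuation y = 1 ↔ y ∈ O ∧ y⁻¹ ∈ O := by
  rw [← val_le_one_iff, ← val_le_one_iff, map_inv₀]
  constructor
  · intro h; rw [h]; simp
  · rintro ⟨h1, h2⟩
    have h0 : O.valuation y ≠ 0 := (Valuation.ne_zero_iff _).mpr hy
    have : 1 ≤ O.valuation y := by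
      rwa [inv_le_one₀ (zero_lt_iff.mpr h0)] at h2
    exact le_antisymm h1 this

theorem val_lt_one_iff {y : F} : O.valuation y < 1 ↔ y ∈ O.nonunits :=
  Iff.rfl

end OU

/-! ### Constants -/

section Const

variable {A : ValuationSubring K} {O : ValuationSubring F}

theorem val_const_le (hmem : ∀ a : K, algebraMap K F a ∈ O ↔ a ∈ A) (a : K) :
    O.valuation (algebraMap K F a) ≤ 1 ↔ a ∈ A := by
  rw [val_le_one_iff]; exact hmem a

theorem val_const_lt (hmem : ∀ a : K, algebraMap K F a ∈ O ↔ a ∈ A) (a : K) :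
    O.valuation (algebraMap K F a) < 1 ↔ a ∈ A.nonunits := by
  rw [ValuationSubring.mem_nonunits_iff_or, val_lt_one_iff, ValuationSubring.mem_nonunits_iff_or]
  rw [← map_inv₀, hmem]
  simp

theorem val_const_eq_one (hmem : ∀ a : K, algebraMap K F a ∈ O ↔ a ∈ A) {a : K} (ha0 : a ≠ 0)
    (ha : a ∈ A) (ha' : a⁻¹ ∈ A) : O.valuation (algebraMap K F a) = 1 := by
  rw [val_eq_one_iff (by simpa using ha0), ← map_inv₀]
  exact ⟨(hmem a).mpr ha, (hmem _).mpr ha'⟩

/-- scaling to a unit -/
theorem exists_scale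
    (hscale : ∀ f : F, f ≠ 0 → ∃ c : K, c ≠ 0 ∧ algebraMap K F c * f ∈ O ∧
      (algebraMap K F c * f)⁻¹ ∈ O) {f : F} (hf : f ≠ 0) :
    ∃ c : K, c ≠ 0 ∧ O.valuation (algebraMap K F c * f) = 1 := by
  obtain ⟨c, hc, h1, h2⟩ := hscale f hf
  have hcF : algebraMap K F c ≠ 0 := by simpa using hc
  exact ⟨c, hc, (val_eq_one_iff (mul_ne_zero hcF hf)).mpr ⟨h1, h2⟩⟩

/-- an element of `m_O` is `c * unit` with `c ∈ m_A`. -/
theorem exists_small_scale (hmem : ∀ a : K, algebraMap K F a ∈ O ↔ a ∈ A)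
    (hscale : ∀ f : F, f ≠ 0 → ∃ c : K, c ≠ 0 ∧ algebraMap K F c * f ∈ O ∧
      (algebraMap K F c * f)⁻¹ ∈ O) {f : F} (hf : f ≠ 0) (hlt : O.valuation f < 1) :
    ∃ (c : K) (s : F), c ≠ 0 ∧ c ∈ A.nonunits ∧ O.valuation s = 1 ∧ f = algebraMap K F c * s := by
  obtain ⟨c, hc, h1⟩ := exists_scale hscale hf
  have hcF : algebraMap K F c ≠ 0 := by simpa using hc
  refine ⟨c⁻¹, algebraMap K F c * f, inv_ne_zero hc, ?_, h1, ?_⟩
  · rw [← val_const_lt hmem]
    have h2 : O.valuation (algebraMap K F c) * O.valuation f = 1 := by rw [← map_mul]; exact h1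
    have hf0 : O.valuation f ≠ 0 := (Valuation.ne_zero_iff _).mpr hf
    have h3 : O.valuation (algebraMap K F c) = (O.valuation f)⁻¹ := eq_inv_of_mul_eq_one_left h2
    rw [map_inv₀, map_inv₀, h3, inv_inv]
    exact hlt
  · rw [map_inv₀]; field_simp

end Const

end Fermat.Agent.S18.H29
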