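/-
S18 / wave 4 (helper29): evaluation at a place of degree one; divisors of functions and class
degrees (for the count inside `F`, see `Count.lean`).
-/
import Fermat.Agent.S18.H29.Basic

set_option autoImplicit false

open AlgebraicCurve

noncomputable section

namespace Fermat.Agent.S18.H29

open Fermat.Agent.S24

variable {K : Type*} [Field K] {F : Type*} [Field F] [Algebra K F]

/-! ### `ord` helpers -/

section Ord

variable (P : Place K F)

theorem ord_const (c : K) : P.ord (algebraMap K F c) = 0 := by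
  rcases eq_or_ne c 0 with rfl | hc
  · simp
  have h1 := H52.ord_nonneg_of_mem P (P.algebraMap_mem' c)
  have h2 := H52.ord_nonneg_of_mem P (P.algebraMap_mem' c⁻¹)
  rw [map_inv₀, P.ord_inv] at h2
  omega

theorem ord_npow (f : F) (n : ℕ) : P.ord (f ^ n) = n * P.ord f := by
  have := P.ord_zpow f (n : ℤ)
  simpa using this

theorem ord_div' {f g : F} (hf : f ≠ 0) (hg : g ≠ 0) : P.ord (f / g) = P.ord f - P.ord g := by
  rw [div_eq_mul_inv, P.ord_mul hf (inv_ne_zero hg), P.ord_inv]; ring

theorem mem_of_ord_nonneg {f : F} (h : 0 ≤ P.ord f) : f ∈ P.toValuationSubring := by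
  rcases eq_or_ne f 0 with rfl | hf
  · exact zero_mem _
  · exact (H52.mem_iff_ord_nonneg P hf).mpr h

theorem ord_pos_iff_not_inv_mem {f : F} (hf : f ≠ 0) :
    0 < P.ord f ↔ f⁻¹ ∉ P.toValuationSubring := by
  rw [H52.mem_iff_ord_nonneg P (inv_ne_zero hf), P.ord_inv]
  omega

end Ord

/-! ### Evaluation at a place of degree one -/

section Eval

variable (P : Place K F)

theorem bijective_algebraMap_residue (hdeg : P.deg = 1) :
    Function.Bijective (algebraMap K P.ResidueField) := by
  refine ⟨(algebraMap K P.ResidueField).injective, ?_⟩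
  rw [Algebra.surjective_algebraMap_iff]
  exact (Subalgebra.bot_eq_top_of_finrank_eq_one hdeg).symm

/-- Evaluation at a place of degree one, on its valuation ring. -/
def evAlg (hdeg : P.deg = 1) : P.toValuationSubring →ₐ[K] K :=
  ((AlgEquiv.ofBijective (Algebra.ofId K P.ResidueField)
      (bijective_algebraMap_residue P hdeg)).symm : P.ResidueField →ₐ[K] K).comp
    (IsScalarTower.toAlgHom K P.toValuationSubring P.ResidueField)

theorem algebraMap_evAlg (hdeg : P.deg = 1) (y : P.toValuationSubring) :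
    algebraMap K P.ResidueField (evAlg P hdeg y) = IsLocalRing.residue _ y := by
  have := (AlgEquiv.ofBijective (Algebra.ofId K P.ResidueField)
      (bijective_algebraMap_residue P hdeg)).apply_symm_apply (IsLocalRing.residue _ y)
  exact this

theorem evAlg_eq_zero_iff (hdeg : P.deg = 1) (y : P.toValuationSubring) :
    evAlg P hdeg y = 0 ↔ (y : F) = 0 ∨ 0 < P.ord (y : F) := by
  have h1 : evAlg P hdeg y = 0 ↔ IsLocalRing.residue _ y = 0 := by
    rw [← algebraMap_evAlg P hdeg y]
    constructor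
    · intro h; rw [h, map_zero]
    · intro h
      exact (algebraMap K P.ResidueField).injective (by rw [h, map_zero])
  rw [h1, IsLocalRing.residue_eq_zero_iff, IsLocalRing.mem_maximalIdeal, mem_nonunits_iff,
    ValuationSubring.valuation_eq_one_iff]
  rcases eq_or_ne (y : F) 0 with h0 | h0
  · simp [h0]
  · rw [val_eq_one_iff h0, ord_pos_iff_not_inv_mem P h0]
    simp [h0]

/-- Value of `y` at `P` (junk value `0` if `y` has a pole at `P`). -/
def ev (hdeg : P.deg = 1) (y : F) : K :=
  open Classical in if h : y ∈ P.toValuationSubring then evAlg P hdeg ⟨y, h⟩ else 0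

variable {P}
variable (hdeg : P.deg = 1)

theorem ev_of_mem {y : F} (h : y ∈ P.toValuationSubring) : ev P hdeg y = evAlg P hdeg ⟨y, h⟩ :=
  dif_pos h

theorem ev_add {y z : F} (hy : y ∈ P.toValuationSubring) (hz : z ∈ P.toValuationSubring) :
    ev P hdeg (y + z) = ev P hdeg y + ev P hdeg z := by
  rw [ev_of_mem hdeg hy, ev_of_mem hdeg hz, ev_of_mem hdeg (add_mem hy hz), ← map_add]
  rfl

theorem ev_mul {y z : F} (hy : y ∈ P.toValuationSubring) (hz : z ∈ P.toValuationSubring) :
    ev P hdeg (y * z) = ev P hdeg y * ev P hdeg z := by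
  rw [ev_of_mem hdeg hy, ev_of_mem hdeg hz, ev_of_mem hdeg (mul_mem hy hz), ← map_mul]
  rfl

theorem ev_const (c : K) : ev P hdeg (algebraMap K F c) = c := by
  rw [ev_of_mem hdeg (P.algebraMap_mem' c)]
  exact (evAlg P hdeg).commutes c

theorem ev_one : ev P hdeg (1 : F) = 1 := by
  have := ev_const (P := P) hdeg (1 : K)
  rwa [map_one] at this

theorem ev_neg {y : F} (hy : y ∈ P.toValuationSubring) : ev P hdeg (-y) = -ev P hdeg y := by
  rw [ev_of_mem hdeg hy, ev_of_mem hdeg (neg_mem hy), ← map_neg]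
  rfl

theorem ev_sub {y z : F} (hy : y ∈ P.toValuationSubring) (hz : z ∈ P.toValuationSubring) :
    ev P hdeg (y - z) = ev P hdeg y - ev P hdeg z := by
  rw [sub_eq_add_neg, ev_add hdeg hy (neg_mem hz), ev_neg hdeg hz, sub_eq_add_neg]

theorem ev_pow {y : F} (hy : y ∈ P.toValuationSubring) (n : ℕ) :
    ev P hdeg (y ^ n) = ev P hdeg y ^ n := by
  induction n with
  | zero => simpa using ev_one hdeg
  | succ n ih => rw [pow_succ, ev_mul hdeg (pow_mem hy n) hy, ih, pow_succ]

theorem ev_const_mul (c : K) {y : F} (hy : y ∈ P.toValuationSubring) :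
    ev P hdeg (algebraMap K F c * y) = c * ev P hdeg y := by
  rw [ev_mul hdeg (P.algebraMap_mem' c) hy, ev_const]

theorem ev_eq_zero_iff {y : F} (hy : y ∈ P.toValuationSubring) :
    ev P hdeg y = 0 ↔ y = 0 ∨ 0 < P.ord y := by
  rw [ev_of_mem hdeg hy]
  exact evAlg_eq_zero_iff P hdeg ⟨y, hy⟩

/-- `y - y(P)` vanishes at `P`. -/
theorem sub_ev_spec {y : F} (hy : y ∈ P.toValuationSubring) :
    y - algebraMap K F (ev P hdeg y) = 0 ∨ 0 < P.ord (y - algebraMap K F (ev P hdeg y)) := by
  rw [← ev_eq_zero_iff hdeg (sub_mem hy (P.algebraMap_mem' _)),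
    ev_sub hdeg hy (P.algebraMap_mem' _), ev_const, sub_self]

end Eval

/-! ### Divisors of functions and class degrees -/

section Div

variable (hprin : ∀ f : F, f ≠ 0 → ∃ D : Place K F →₀ ℤ, (∀ P, D P = P.ord f) ∧
  (D.sum fun _ n => n) = 0)

/-- The divisor of a function (as a `Finsupp`), `0` for `f = 0`. -/
def dv (f : F) : Place K F →₀ ℤ :=
  open Classical in if h : f = 0 then 0 else (hprin f h).choose

theorem dv_apply (f : F) (P : Place K F) : dv hprin f P = P.ord f := by
  unfold dv
  split_ifs with h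
  · subst h; simp
  · exact (hprin f h).choose_spec.1 P

theorem dv_sum (f : F) : ((dv hprin f).sum fun _ n => n) = 0 := by
  unfold dv
  split_ifs with h
  · simp
  · exact (hprin f h).choose_spec.2

theorem dv_mul {f g : F} (hf : f ≠ 0) (hg : g ≠ 0) :
    dv hprin (f * g) = dv hprin f + dv hprin g := by
  ext P
  rw [Finsupp.add_apply, dv_apply, dv_apply, dv_apply, P.ord_mul hf hg]

theorem dv_inv (f : F) : dv hprin f⁻¹ = -dv hprin f := by
  ext P
  rw [Finsupp.neg_apply, dv_apply, dv_apply, P.ord_inv]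

theorem dv_const (c : K) : dv hprin (algebraMap K F c) = 0 := by
  ext P
  rw [dv_apply, ord_const, Finsupp.zero_apply]

theorem dv_pow (f : F) (n : ℕ) : dv hprin (f ^ n) = n • dv hprin f := by
  ext P
  rw [Finsupp.smul_apply, dv_apply, dv_apply, ord_npow, nsmul_eq_mul]

variable {𝔇 : Type*} (cls : Place K F → 𝔇)

/-- The degree of `div f` on the class `d`. -/
def sg (f : F) (d : 𝔇) : ℤ := Finsupp.mapDomain cls (dv hprin f) d

theorem sg_mul {f g : F} (hf : f ≠ 0) (hg : g ≠ 0) (d : 𝔇) :
    sg hprin cls (f * g) d = sg hprin cls f d + sg hprin cls g d := by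
  unfold sg
  rw [dv_mul hprin hf hg, Finsupp.mapDomain_add, Finsupp.add_apply]

theorem sg_inv (f : F) (d : 𝔇) : sg hprin cls f⁻¹ d = -sg hprin cls f d := by
  unfold sg
  rw [dv_inv, ← Finsupp.mapDomain.addMonoidHom_apply, map_neg, Finsupp.neg_apply]
  rfl

theorem sg_const (c : K) (d : 𝔇) : sg hprin cls (algebraMap K F c) d = 0 := by
  unfold sg
  rw [dv_const, Finsupp.mapDomain_zero, Finsupp.zero_apply]

theorem sg_pow (f : F) (n : ℕ) (d : 𝔇) : sg hprin cls (f ^ n) d = n * sg hprin cls f d := by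
  unfold sg
  rw [dv_pow, ← Finsupp.mapDomain.addMonoidHom_apply, map_nsmul, Finsupp.smul_apply,
    nsmul_eq_mul]
  rfl

theorem sg_div {f g : F} (hf : f ≠ 0) (hg : g ≠ 0) (d : 𝔇) :
    sg hprin cls (f / g) d = sg hprin cls f d - sg hprin cls g d := by
  rw [div_eq_mul_inv, sg_mul hprin cls hf (inv_ne_zero hg), sg_inv]; ring

open Classical in
theorem sg_eq_sum (f : F) (d : 𝔇) :
    sg hprin cls f d = ∑ P ∈ (dv hprin f).support, if cls P = d then P.ord f else 0 := by
  unfold sg
  rw [Finsupp.mapDomain, Finsupp.sum, Finsupp.finsetSum_apply]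
  refine Finset.sum_congr rfl fun P _ => ?_
  rw [Finsupp.single_apply, dv_apply]

theorem sg_nonneg {f : F} {d : 𝔇} (h : ∀ P : Place K F, cls P = d → 0 ≤ P.ord f) :
    0 ≤ sg hprin cls f d := by
  rw [sg_eq_sum]
  refine Finset.sum_nonneg fun P _ => ?_
  split_ifs with hP
  · exact h P hP
  · exact le_rfl

theorem sg_pos {f : F} {d : 𝔇} (h : ∀ P : Place K F, cls P = d → 0 ≤ P.ord f)
    (P₀ : Place K F) (hP₀ : cls P₀ = d) (hpos : 0 < P₀.ord f) : 1 ≤ sg hprin cls f d := by
  classical
  rw [sg_eq_sum]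
  have hmem : P₀ ∈ (dv hprin f).support := by
    rw [Finsupp.mem_support_iff, dv_apply]; omega
  have hle : (if cls P₀ = d then P₀.ord f else 0) ≤
      ∑ P ∈ (dv hprin f).support, if cls P = d then P.ord f else 0 := by
    refine Finset.single_le_sum (f := fun P => if cls P = d then P.ord f else 0) ?_ hmem
    intro P _
    show 0 ≤ if cls P = d then P.ord f else 0
    split_ifs with hP
    · exact h P hP
    · exact le_rfl
  rw [if_pos hP₀] at hle
  omega

theorem sg_total (f : F) :
    ((Finsupp.mapDomain cls (dv hprin f)).sum fun _ n => n) = 0 := by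
  have := Finsupp.sum_mapDomain_index_addMonoidHom (f := cls) (s := dv hprin f)
    (fun _ => AddMonoidHom.id ℤ)
  simp only [AddMonoidHom.id_apply] at this
  rw [this]
  exact dv_sum hprin f

end Div

end Fermat.Agent.S18.H29
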