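/-
S18 / wave 4 (helper29): the hypotheses `ClassHyp` of the count inside `F` and the three local
lemmas (values of integral functions on a class are integral; a unit with a small value has a zero
in the class).
-/
import Fermat.Agent.S18.H29.Eval

set_option autoImplicit false

open AlgebraicCurve

noncomputable section

namespace Fermat.Agent.S18.H29

open Fermat.Agent.S24

variable {K : Type*} [Field K] (A : ValuationSubring K) {F : Type*} [Field F] [Algebra K F]
  (O : ValuationSubring F)

/-- Hypotheses of the count: the places of `F/K` are partitioned into classes by `cls`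
(think: residue discs of the base function `x`, `∞` included). -/
structure ClassHyp {𝔇 : Type*} (cls : Place K F → 𝔇) (x : F) (m : ℕ) : Prop where
  /-- `O ∩ K = A` -/
  mem_iff : ∀ a : K, algebraMap K F a ∈ O ↔ a ∈ A
  /-- the value group of `O` is that of `A` -/
  scale : ∀ f : F, f ≠ 0 → ∃ c : K, c ≠ 0 ∧ algebraMap K F c * f ∈ O ∧ (algebraMap K F c * f)⁻¹ ∈ O
  /-- `A` has rank one -/
  arch : ∀ a c : K, a ∈ A.nonunits → c ≠ 0 → ∃ n : ℕ, a ^ n * c⁻¹ ∈ A
  /-- all places have degree one -/
  deg_one : ∀ P : Place K F, P.deg = 1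
  /-- principal divisors exist and have degree `0` -/
  prin : ∀ f : F, f ≠ 0 → ∃ D : Place K F →₀ ℤ, (∀ P, D P = P.ord f) ∧ (D.sum fun _ n => n) = 0
  /-- infinitely many classes are inhabited -/
  inf_classes : (Set.range cls).Infinite
  /-- one-units have degree `0` on every class -/
  one : ∀ y : F, y - 1 ∈ O.nonunits → ∀ D : Place K F →₀ ℤ, (∀ P, D P = P.ord y) →
    ∀ d : 𝔇, Finsupp.mapDomain cls D d = 0
  /-- clearing on a class -/
  clear : ∀ (d : 𝔇) (u : F), u - 1 ∈ O.nonunits →
    (∀ P : Place K F, cls P = d → (m : ℤ) ∣ P.ord u) →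
    ∃ g : F, g - 1 ∈ O.nonunits ∧ ∀ P : Place K F, cls P = d → (m : ℤ) * P.ord g = P.ord u
  /-- `x` is a unit of `O` -/
  x_unit : x ∈ O ∧ x⁻¹ ∈ O
  /-- the poles of `x` lie in one class, on which `x` has no zeros -/
  inf : ∃ dinf : 𝔇, (∀ P : Place K F, P.ord x < 0 → cls P = dinf) ∧
    ∀ P : Place K F, cls P = dinf → P.ord x ≤ 0

/-- Integral functions without poles on the class `d`. -/
def discSub {𝔇 : Type*} (cls : Place K F → 𝔇) (d : 𝔇) : Subring F where
  carrier := {y | y ∈ O ∧ ∀ P : Place K F, cls P = d → y ∈ P.toValuationSubring}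
  mul_mem' := fun ha hb => ⟨mul_mem ha.1 hb.1, fun P hP => mul_mem (ha.2 P hP) (hb.2 P hP)⟩
  one_mem' := ⟨one_mem _, fun _ _ => one_mem _⟩
  add_mem' := fun ha hb => ⟨add_mem ha.1 hb.1, fun P hP => add_mem (ha.2 P hP) (hb.2 P hP)⟩
  zero_mem' := ⟨zero_mem _, fun _ _ => zero_mem _⟩
  neg_mem' := fun ha => ⟨neg_mem ha.1, fun P hP => neg_mem (ha.2 P hP)⟩

variable {A O}
variable {𝔇 : Type*} {cls : Place K F → 𝔇} {x : F} {m : ℕ}

theorem mem_discSub {d : 𝔇} {y : F} :
    y ∈ discSub O cls d ↔ y ∈ O ∧ ∀ P : Place K F, cls P = d → y ∈ P.toValuationSubring :=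
  Iff.rfl

theorem const_mem_discSub (hC : ClassHyp A O cls x m) (d : 𝔇) {a : K} (ha : a ∈ A) :
    algebraMap K F a ∈ discSub O cls d :=
  ⟨(hC.mem_iff a).mpr ha, fun P _ => P.algebraMap_mem' a⟩

namespace ClassHyp

variable (hC : ClassHyp A O cls x m)
include hC

/-- one-units have class degree `0`. -/
theorem sg_one {y : F} (hy : IsOU O y) (d : 𝔇) : sg hC.prin cls y d = 0 :=
  hC.one y hy (dv hC.prin y) (dv_apply hC.prin y) d

/-- the class degree only depends on the function modulo `m_O` (for units). -/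
theorem sg_congr {y z : F} (hy : O.valuation y = 1) (h : O.valuation (z - y) < 1) (d : 𝔇) :
    sg hC.prin cls z d = sg hC.prin cls y d := by
  have hy0 : y ≠ 0 := by rintro rfl; simp at hy
  have hou := isOU_div_of_sub hy h
  have e : z = y * (z / y) := by field_simp
  rw [e, sg_mul hC.prin cls hy0 hou.ne_zero, hC.sg_one hou, add_zero]

/-- **Lemma V**: an integral function without poles on a class has integral values there. -/
theorem ev_mem {d : 𝔇} {y : F} (hy : y ∈ discSub O cls d) {P : Place K F} (hP : cls P = d) :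
    ev P (hC.deg_one P) y ∈ A := by
  by_contra hc
  set c := ev P (hC.deg_one P) y with hcdef
  have hc0 : c ≠ 0 := by rintro h; exact hc (h ▸ A.zero_mem)
  have hcinv : c⁻¹ ∈ A.nonunits := by
    rw [ValuationSubring.mem_nonunits_iff_or, inv_inv]; exact Or.inr hc
  have hsmall : O.valuation (algebraMap K F c⁻¹ * y) < 1 := by
    rw [map_mul]
    exact mul_lt_one_of_lt_of_le ((val_const_lt hC.mem_iff _).mpr hcinv) (val_le_one_iff.mpr hy.1)
  set z : F := 1 - algebraMap K F c⁻¹ * y with hz
  have hzou : IsOU O z := by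
    unfold IsOU
    rw [hz, sub_sub_cancel_left, Valuation.map_neg]
    exact hsmall
  have hreg : ∀ P' : Place K F, cls P' = d → z ∈ P'.toValuationSubring := fun P' hP' =>
    sub_mem (one_mem _) (mul_mem (P'.algebraMap_mem' _) (hy.2 P' hP'))
  have hev : ev P (hC.deg_one P) z = 0 := by
    rw [hz, ev_sub _ (one_mem _) (mul_mem (P.algebraMap_mem' _) (hy.2 P hP)), ev_one,
      ev_const_mul _ _ (hy.2 P hP), ← hcdef, inv_mul_cancel₀ hc0, sub_self]
  have hpos : 0 < P.ord z := by
    rcases (ev_eq_zero_iff (hC.deg_one P) (hreg P hP)).mp hev with h | h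
    · exact absurd h hzou.ne_zero
    · exact h
  have h1 := sg_pos hC.prin cls (fun P' hP' => H52.ord_nonneg_of_mem P' (hreg P' hP')) P hP hpos
  rw [hC.sg_one hzou] at h1
  omega

/-- **Lemma V'**: a function of `m_O` without poles on a class has values in `m_A` there. -/
theorem ev_mem_nonunits {d : 𝔇} {y : F} (hy : O.valuation y < 1)
    (hreg : ∀ P : Place K F, cls P = d → y ∈ P.toValuationSubring) {P : Place K F}
    (hP : cls P = d) : ev P (hC.deg_one P) y ∈ A.nonunits := by
  rcases eq_or_ne y 0 with rfl | hy0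
  · have : ev P (hC.deg_one P) (0 : F) = 0 := by
      have := ev_const (P := P) (hC.deg_one P) (0 : K)
      rwa [map_zero] at this
    rw [this]; exact A.nonunits.zero_mem
  obtain ⟨c, s, hc0, hc, hs, rfl⟩ := exists_small_scale hC.mem_iff hC.scale hy0 hy
  have hs0 : s ≠ 0 := by rintro rfl; simp at hs
  have hcF : algebraMap K F c ≠ 0 := by simpa using hc0
  have hsreg : ∀ P' : Place K F, cls P' = d → s ∈ P'.toValuationSubring := by
    intro P' hP'
    have h1 := hreg P' hP'
    have h2 : s = algebraMap K F c⁻¹ * (algebraMap K F c * s) := by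
      rw [map_inv₀]; field_simp
    rw [h2]
    exact mul_mem (P'.algebraMap_mem' _) h1
  have hsmem : s ∈ discSub O cls d := ⟨val_le_one_iff.mp hs.le, hsreg⟩
  have hev := hC.ev_mem hsmem hP
  rw [ev_const_mul _ _ (hsreg P hP)]
  show A.valuation (c * ev P (hC.deg_one P) s) < 1
  rw [map_mul]
  exact mul_lt_one_of_lt_of_le hc ((A.valuation_le_one_iff _).mpr hev)

/-- **Lemma Z**: a unit of `O` without poles on a class whose value at some point of the class lies
in `m_A` has a zero in the class. -/
theorem one_le_sg_of_ev {d : 𝔇} {y : F} (hy : O.valuation y = 1)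
    (hreg : ∀ P : Place K F, cls P = d → y ∈ P.toValuationSubring) {P : Place K F}
    (hP : cls P = d) (hev : ev P (hC.deg_one P) y ∈ A.nonunits) :
    1 ≤ sg hC.prin cls y d := by
  set a := ev P (hC.deg_one P) y with ha
  set z : F := y - algebraMap K F a with hz
  have hzy : O.valuation (z - y) < 1 := by
    rw [hz, sub_sub_cancel_left, Valuation.map_neg]
    exact (val_const_lt hC.mem_iff _).mpr hev
  have hz1 : O.valuation z = 1 := val_eq_one_of_sub hy hzy
  have hz0 : z ≠ 0 := by rintro h; rw [h] at hz1; simp at hz1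
  have hzreg : ∀ P' : Place K F, cls P' = d → z ∈ P'.toValuationSubring := fun P' hP' =>
    sub_mem (hreg P' hP') (P'.algebraMap_mem' _)
  have hpos : 0 < P.ord z := by
    rcases sub_ev_spec (hC.deg_one P) (hreg P hP) with h | h
    · exact absurd h hz0
    · exact h
  have h1 := sg_pos hC.prin cls (fun P' hP' => H52.ord_nonneg_of_mem P' (hzreg P' hP')) P hP hpos
  rwa [hC.sg_congr hy hzy] at h1

end ClassHyp

end Fermat.Agent.S18.H29
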