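/-
S18 / wave 4 (helper29): auxiliary lemmas for the count inside `F` (`Count.lean`):
the summation lemma, scaling of a pair, the pole-clearing factor `xi`, the precision lemma.
-/
import Fermat.Agent.S18.H29.ClassLemmas
import Fermat.Agent.S18.H29.Algebra

set_option autoImplicit false

open AlgebraicCurve

noncomputable section

namespace Fermat.Agent.S18.H29

open Fermat.Agent.S24

variable {K : Type*} [Field K] {A : ValuationSubring K} {F : Type*} [Field F] [Algebra K F]
  {O : ValuationSubring F}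

/-- total degree of a `Finsupp` divisor, as an additive map -/
def tot (α : Type*) : (α →₀ ℤ) →+ ℤ := Finsupp.liftAddHom fun _ => AddMonoidHom.id ℤ

theorem tot_apply {α : Type*} (E : α →₀ ℤ) : tot α E = E.sum fun _ n => n := by
  simp [tot, Finsupp.liftAddHom_apply]
  rfl

theorem tot_single {α : Type*} (a : α) (n : ℤ) : tot α (Finsupp.single a n) = n := by
  simp [tot_apply]

theorem tot_mapDomain {α β : Type*} (f : α → β) (D : α →₀ ℤ) :
    tot β (Finsupp.mapDomain f D) = tot α D := by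
  rw [tot_apply, tot_apply]
  have := Finsupp.sum_mapDomain_index_addMonoidHom (f := f) (s := D)
    (fun _ => AddMonoidHom.id ℤ)
  simpa using this

/-- **Summation lemma.** -/
theorem card_le_tot {α : Type*} (E : α →₀ ℤ) (s : Finset α) (h0 : ∀ d, 0 ≤ E d)
    (h1 : ∀ d ∈ s, 1 ≤ E d) : (s.card : ℤ) ≤ tot α E := by
  classical
  rw [tot_apply, Finsupp.sum]
  have hsub : s ⊆ E.support := by
    intro d hd
    rw [Finsupp.mem_support_iff]
    have := h1 d hd
    omega
  calc (s.card : ℤ) = ∑ _d ∈ s, (1 : ℤ) := by simp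
    _ ≤ ∑ d ∈ s, E d := Finset.sum_le_sum h1
    _ ≤ ∑ d ∈ E.support, E d :=
        Finset.sum_le_sum_of_subset_of_nonneg hsub fun d _ _ => h0 d

/-- Scale a nonzero pair into `O` with one unit entry. -/
theorem exists_scale_pair
    (hscale : ∀ f : F, f ≠ 0 → ∃ c : K, c ≠ 0 ∧ algebraMap K F c * f ∈ O ∧
      (algebraMap K F c * f)⁻¹ ∈ O) {h₀ h₁ : F} (hne : h₀ ≠ 0 ∨ h₁ ≠ 0) :
    ∃ c : K, c ≠ 0 ∧ O.valuation (algebraMap K F c * h₀) ≤ 1 ∧
      O.valuation (algebraMap K F c * h₁) ≤ 1 ∧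
      (O.valuation (algebraMap K F c * h₀) = 1 ∨ O.valuation (algebraMap K F c * h₁) = 1) := by
  rcases eq_or_ne h₀ 0 with rfl | h0
  · have h1 : h₁ ≠ 0 := hne.resolve_left (by simp)
    obtain ⟨c, hc, hv⟩ := exists_scale hscale h1
    exact ⟨c, hc, by simp, hv.le, Or.inr hv⟩
  rcases eq_or_ne h₁ 0 with rfl | h1
  · obtain ⟨c, hc, hv⟩ := exists_scale hscale h0
    exact ⟨c, hc, hv.le, by simp, Or.inl hv⟩
  obtain ⟨c₀, hc₀, hv₀⟩ := exists_scale hscale h0
  obtain ⟨c₁, hc₁, hv₁⟩ := exists_scale hscale h1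
  rw [map_mul] at hv₀ hv₁
  rcases le_total (O.valuation (algebraMap K F c₀)) (O.valuation (algebraMap K F c₁)) with hle | hle
  · refine ⟨c₀, hc₀, ?_, ?_, Or.inl ?_⟩
    · rw [map_mul, hv₀]
    · rw [map_mul, ← hv₁]
      exact mul_le_mul_left hle _
    · rw [map_mul, hv₀]
  · refine ⟨c₁, hc₁, ?_, ?_, Or.inr ?_⟩
    · rw [map_mul, ← hv₀]
      exact mul_le_mul_left hle _
    · rw [map_mul, hv₁]
    · rw [map_mul, hv₁]

/-- **Precision lemma**: a power of an element of `m_O` without poles on a class is divisible by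
any nonzero constant, with a quotient in `m_O` without poles on the class. -/
theorem exists_prec {𝔇 : Type*} {cls : Place K F → 𝔇} {x : F} {m : ℕ}
    (hC : ClassHyp A O cls x m) {d : 𝔇} {w : F} (hw : O.valuation w < 1)
    (hwreg : ∀ P : Place K F, cls P = d → w ∈ P.toValuationSubring) {c : K} (hc : c ≠ 0) :
    ∃ (N : ℕ) (ε : F), O.valuation ε < 1 ∧ (∀ P : Place K F, cls P = d → ε ∈ P.toValuationSubring) ∧
      w ^ (N + 1) = algebraMap K F c * ε := by
  rcases eq_or_ne w 0 with rfl | hw0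
  · exact ⟨0, 0, by simp, fun _ _ => zero_mem _, by simp⟩
  obtain ⟨a, s, ha0, ha, hs, rfl⟩ := exists_small_scale hC.mem_iff hC.scale hw0 hw
  obtain ⟨N, hN⟩ := hC.arch a c ha hc
  have haF : algebraMap K F a ≠ 0 := by simpa using ha0
  have hcF : algebraMap K F c ≠ 0 := by simpa using hc
  have hsreg : ∀ P : Place K F, cls P = d → s ∈ P.toValuationSubring := by
    intro P hP
    have h2 : s = algebraMap K F a⁻¹ * (algebraMap K F a * s) := by
      rw [map_inv₀]; field_simp
    rw [h2]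
    exact mul_mem (P.algebraMap_mem' _) (hwreg P hP)
  refine ⟨N, algebraMap K F (a ^ N * c⁻¹ * a) * s ^ (N + 1), ?_, ?_, ?_⟩
  · rw [map_mul, map_pow, hs, one_pow, mul_one, val_const_lt hC.mem_iff]
    show A.valuation (a ^ N * c⁻¹ * a) < 1
    rw [map_mul, mul_comm]
    exact mul_lt_one_of_lt_of_le ha ((A.valuation_le_one_iff _).mpr hN)
  · intro P hP
    exact mul_mem (P.algebraMap_mem' _) (pow_mem (hsreg P hP) _)
  · rw [mul_pow, map_mul, map_mul, map_pow, map_inv₀]
    field_simp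
    ring

end Fermat.Agent.S18.H29
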