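/-
S18 / wave 4 (helper29): the pole-clearing factor `xi d` (`x⁻¹ ^ n` on the class of the poles of
`x`, `1` elsewhere) for the count inside `F`.
-/
import Fermat.Agent.S18.H29.CountAux

set_option autoImplicit false

open AlgebraicCurve

noncomputable section

namespace Fermat.Agent.S18.H29

open Fermat.Agent.S24

variable {K : Type*} [Field K] {A : ValuationSubring K} {F : Type*} [Field F] [Algebra K F]
  {O : ValuationSubring F} {𝔇 : Type*} {cls : Place K F → 𝔇} {x : F} {m : ℕ}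

/-- The pole-clearing factor. -/
def xi (x : F) (n : ℕ) (dinf d : 𝔇) : F :=
  open Classical in if d = dinf then x⁻¹ ^ n else 1

theorem xi_inf (n : ℕ) (dinf : 𝔇) : xi x n dinf dinf = x⁻¹ ^ n := if_pos rfl

theorem xi_of_ne (n : ℕ) {dinf d : 𝔇} (h : d ≠ dinf) : xi x n dinf d = 1 := if_neg h

theorem xi_ne_zero (hx : x ≠ 0) (n : ℕ) (dinf d : 𝔇) : xi x n dinf d ≠ 0 := by
  unfold xi
  split_ifs
  · exact pow_ne_zero _ (inv_ne_zero hx)
  · exact one_ne_zero

theorem val_xi (hx : O.valuation x = 1) (n : ℕ) (dinf d : 𝔇) :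
    O.valuation (xi x n dinf d) = 1 := by
  unfold xi
  split_ifs
  · rw [map_pow, map_inv₀, hx, inv_one, one_pow]
  · exact map_one _

/-- `xi d * y` has no poles on `d` if `y ∈ L(n (x)_∞)` locally on `d`. -/
theorem xi_mul_mem (hm : m ≠ 0) (hx : x ≠ 0) (n : ℕ) {dinf : 𝔇}
    (hinf1 : ∀ P : Place K F, P.ord x < 0 → cls P = dinf)
    (hinf2 : ∀ P : Place K F, cls P = dinf → P.ord x ≤ 0) {d : 𝔇} {y : F}
    (hy : ∀ P : Place K F, cls P = d →
      (m : ℤ) * min 0 ((n : ℤ) * P.ord x) ≤ (m : ℤ) * P.ord y) :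
    ∀ P : Place K F, cls P = d → xi x n dinf d * y ∈ P.toValuationSubring := by
  intro P hP
  rcases eq_or_ne y 0 with rfl | hy0
  · rw [mul_zero]; exact zero_mem _
  have hmpos : (0 : ℤ) < m := by exact_mod_cast Nat.pos_of_ne_zero hm
  have h1 := le_of_mul_le_mul_left (hy P hP) hmpos
  apply mem_of_ord_nonneg
  rw [P.ord_mul (xi_ne_zero hx n dinf d) hy0]
  by_cases hd : d = dinf
  · subst hd
    rw [xi_inf, ord_npow, P.ord_inv]
    have h2 := hinf2 P hP
    have h3 : (n : ℤ) * P.ord x ≤ 0 := mul_nonpos_of_nonneg_of_nonpos (Int.natCast_nonneg n) h2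
    rw [min_eq_right h3] at h1
    linarith
  · rw [xi_of_ne n hd, P.ord_one, zero_add]
    have h2 : 0 ≤ P.ord x := by
      by_contra hneg
      exact hd (hP ▸ hinf1 P (not_le.mp hneg))
    have h3 : 0 ≤ (n : ℤ) * P.ord x := mul_nonneg (Int.natCast_nonneg n) h2
    rwa [min_eq_left h3] at h1

/-- degree of the polar divisor of `x` (as in the statement of the count) -/
def degB (Dx : Place K F →₀ ℤ) : ℕ := Dx.sum fun _ e => (max 0 (-e)).toNat

theorem sg_x_inf (hC : ClassHyp A O cls x m) {dinf : 𝔇}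
    (hinf1 : ∀ P : Place K F, P.ord x < 0 → cls P = dinf)
    (hinf2 : ∀ P : Place K F, cls P = dinf → P.ord x ≤ 0) :
    sg hC.prin cls x dinf = -(degB (dv hC.prin x) : ℤ) := by
  classical
  rw [sg_eq_sum, degB, Finsupp.sum, Nat.cast_sum, ← Finset.sum_neg_distrib]
  refine Finset.sum_congr rfl fun P _ => ?_
  rw [dv_apply]
  split_ifs with hP
  · have h2 := hinf2 P hP
    rw [Int.toNat_of_nonneg (le_max_left _ _), max_eq_right (by omega)]
    ring
  · have h2 : 0 ≤ P.ord x := by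
      by_contra hneg
      exact hP (hinf1 P (not_le.mp hneg))
    rw [Int.toNat_of_nonneg (le_max_left _ _), max_eq_left (by omega)]
    ring

/-- the class degree of `xi d` on `d`. -/
theorem sg_xi (hC : ClassHyp A O cls x m) (n : ℕ) {dinf : 𝔇}
    (hinf1 : ∀ P : Place K F, P.ord x < 0 → cls P = dinf)
    (hinf2 : ∀ P : Place K F, cls P = dinf → P.ord x ≤ 0) (d : 𝔇) :
    sg hC.prin cls (xi x n dinf d) d =
      (Finsupp.single dinf ((n : ℤ) * (degB (dv hC.prin x) : ℤ)) : 𝔇 →₀ ℤ) d := by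
  by_cases hd : d = dinf
  · subst hd
    rw [xi_inf, sg_pow, sg_inv, sg_x_inf hC hinf1 hinf2, Finsupp.single_eq_same]
    ring
  · rw [xi_of_ne n hd, Finsupp.single_eq_of_ne hd]
    have := sg_const hC.prin cls (1 : K) d
    rwa [map_one] at this

end Fermat.Agent.S18.H29
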