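/-
S18 / wave 4 (helper29): the count inside `F`, per-class inequality in Case A
(`h₀ + h₁` is a unit of `O`).
-/
import Fermat.Agent.S18.H29.Xi

set_option autoImplicit false

open AlgebraicCurve

noncomputable section

namespace Fermat.Agent.S18.H29

open Fermat.Agent.S24

variable {K : Type*} [Field K] {A : ValuationSubring K} {F : Type*} [Field F] [Algebra K F]
  {O : ValuationSubring F} {𝔇 : Type*} {cls : Place K F → 𝔇} {x : F} {m : ℕ}

/-- `k₁ g` satisfies the local pole bound on `d` when `k₁ ∈ L(nB + D)` and `ord g = D` on `d`. -/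
theorem pole_mul_clear (n : ℕ) {u k₁ g : F} (hg0 : g ≠ 0) {d : 𝔇}
    (hP1 : k₁ ≠ 0 → ∀ P : Place K F,
      (m : ℤ) * min 0 ((n : ℤ) * P.ord x) ≤ (m : ℤ) * P.ord k₁ + ((1 : ℕ) : ℤ) * P.ord u)
    (hg2 : ∀ P : Place K F, cls P = d → (m : ℤ) * P.ord g = P.ord u) :
    ∀ P : Place K F, cls P = d →
      (m : ℤ) * min 0 ((n : ℤ) * P.ord x) ≤ (m : ℤ) * P.ord (k₁ * g) := by
  intro P hP
  rcases eq_or_ne k₁ 0 with rfl | hk
  · rw [zero_mul, P.ord_zero, mul_zero]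
    exact mul_nonpos_of_nonneg_of_nonpos (Int.natCast_nonneg m) (min_le_left _ _)
  · have h1 := hP1 hk P
    rw [P.ord_mul hk hg0, mul_add, hg2 P hP]
    simpa using h1

theorem pole_zero (n : ℕ) {u k₀ : F}
    (hP0 : k₀ ≠ 0 → ∀ P : Place K F,
      (m : ℤ) * min 0 ((n : ℤ) * P.ord x) ≤ (m : ℤ) * P.ord k₀ + ((0 : ℕ) : ℤ) * P.ord u) :
    ∀ P : Place K F, (m : ℤ) * min 0 ((n : ℤ) * P.ord x) ≤ (m : ℤ) * P.ord k₀ := by
  intro P
  rcases eq_or_ne k₀ 0 with rfl | hk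
  · rw [P.ord_zero, mul_zero]
    exact mul_nonpos_of_nonneg_of_nonpos (Int.natCast_nonneg m) (min_le_left _ _)
  · simpa using hP0 hk P

/-- **Case A, per class.** -/
theorem classA (hC : ClassHyp A O cls x m) (hm0 : m ≠ 0) (hx0 : x ≠ 0) (hxv : O.valuation x = 1)
    (n : ℕ) {dinf : 𝔇} (hinf1 : ∀ P : Place K F, P.ord x < 0 → cls P = dinf)
    (hinf2 : ∀ P : Place K F, cls P = dinf → P.ord x ≤ 0)
    {u k₀ k₁ : F} (hk₁ : O.valuation k₁ ≤ 1)
    (hy : O.valuation (k₀ + k₁) = 1)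
    (hQ0 : ∀ P : Place K F, (m : ℤ) * min 0 ((n : ℤ) * P.ord x) ≤ (m : ℤ) * P.ord k₀)
    (hP1 : k₁ ≠ 0 → ∀ P : Place K F,
      (m : ℤ) * min 0 ((n : ℤ) * P.ord x) ≤ (m : ℤ) * P.ord k₁ + ((1 : ℕ) : ℤ) * P.ord u)
    {d : 𝔇} {g : F} (hg1 : IsOU O g)
    (hg2 : ∀ P : Place K F, cls P = d → (m : ℤ) * P.ord g = P.ord u) :
    0 ≤ sg hC.prin cls (k₀ + k₁) d +
        (Finsupp.single dinf ((n : ℤ) * (degB (dv hC.prin x) : ℤ)) : 𝔇 →₀ ℤ) d ∧
    ∀ (_ : d ≠ dinf) (P : Place K F) (_ : cls P = d)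
      (_ : ∀ P' : Place K F, cls P' = d → P'.ord u = 0) (vv : K) (_ : vv - 1 ∈ A.nonunits)
      (_ : ev P (hC.deg_one P) k₀ + vv * ev P (hC.deg_one P) k₁ = 0),
      1 ≤ sg hC.prin cls (k₀ + k₁) d +
        (Finsupp.single dinf ((n : ℤ) * (degB (dv hC.prin x) : ℤ)) : 𝔇 →₀ ℤ) d := by
  have hg0 := hg1.ne_zero
  set ξ := xi x n dinf d with hξ
  have hξ0 : ξ ≠ 0 := xi_ne_zero hx0 n dinf d
  have hξv : O.valuation ξ = 1 := val_xi hxv n dinf d
  have hy0 : k₀ + k₁ ≠ 0 := by rintro h; rw [h] at hy; simp at hy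
  -- regularity
  have hreg0 : ∀ P : Place K F, cls P = d → ξ * k₀ ∈ P.toValuationSubring :=
    xi_mul_mem hm0 hx0 n hinf1 hinf2 fun P _ => hQ0 P
  have hreg1 : ∀ P : Place K F, cls P = d → ξ * (k₁ * g) ∈ P.toValuationSubring :=
    xi_mul_mem hm0 hx0 n hinf1 hinf2 (pole_mul_clear n hg0 hP1 hg2)
  set yd : F := ξ * (k₀ + k₁ * g) with hyd
  have hydreg : ∀ P : Place K F, cls P = d → yd ∈ P.toValuationSubring := by
    intro P hP
    have : yd = ξ * k₀ + ξ * (k₁ * g) := by rw [hyd]; ring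
    rw [this]
    exact add_mem (hreg0 P hP) (hreg1 P hP)
  have hsmall : O.valuation (yd - ξ * (k₀ + k₁)) < 1 := by
    have : yd - ξ * (k₀ + k₁) = ξ * k₁ * (g - 1) := by rw [hyd]; ring
    rw [this, map_mul, map_mul, hξv, one_mul, mul_comm]
    exact mul_lt_one_of_lt_of_le hg1 hk₁
  have hξy : O.valuation (ξ * (k₀ + k₁)) = 1 := by rw [map_mul, hξv, hy, one_mul]
  have hsg : sg hC.prin cls yd d = sg hC.prin cls (k₀ + k₁) d +
      (Finsupp.single dinf ((n : ℤ) * (degB (dv hC.prin x) : ℤ)) : 𝔇 →₀ ℤ) d := by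
    rw [hC.sg_congr hξy hsmall, sg_mul hC.prin cls hξ0 hy0, sg_xi hC n hinf1 hinf2 d, add_comm]
  refine ⟨?_, ?_⟩
  · rw [← hsg]
    exact sg_nonneg hC.prin cls fun P hP => H52.ord_nonneg_of_mem P (hydreg P hP)
  · intro hd P hP hu0 vv hvv hcond
    rw [← hsg]
    have hξ1 : ξ = 1 := xi_of_ne n hd
    have hydv : O.valuation yd = 1 := val_eq_one_of_sub hξy hsmall
    refine hC.one_le_sg_of_ev hydv hydreg hP ?_
    -- regularity at `P`
    have hk0P : k₀ ∈ P.toValuationSubring := by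
      have := hreg0 P hP; rwa [hξ1, one_mul] at this
    have hgord : ∀ P' : Place K F, cls P' = d → P'.ord g = 0 := by
      intro P' hP'
      have h1 := hg2 P' hP'
      rw [hu0 P' hP'] at h1
      have hmz : (m : ℤ) ≠ 0 := by exact_mod_cast hm0
      exact (mul_eq_zero.mp h1).resolve_left hmz
    have hgreg : ∀ P' : Place K F, cls P' = d → g ∈ P'.toValuationSubring := fun P' hP' =>
      mem_of_ord_nonneg P' (by rw [hgord P' hP'])
    have hk1reg : ∀ P' : Place K F, cls P' = d → k₁ ∈ P'.toValuationSubring := by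
      intro P' hP'
      have h1 := hreg1 P' hP'
      rw [hξ1, one_mul] at h1
      have hginv : g⁻¹ ∈ P'.toValuationSubring :=
        mem_of_ord_nonneg P' (by rw [P'.ord_inv, hgord P' hP', neg_zero])
      have : k₁ = k₁ * g * g⁻¹ := by field_simp
      rw [this]
      exact mul_mem h1 hginv
    have hev : ev P (hC.deg_one P) yd =
        ev P (hC.deg_one P) k₁ * (ev P (hC.deg_one P) g - vv) := by
      rw [hyd, hξ1, one_mul, ev_add _ hk0P (mul_mem (hk1reg P hP) (hgreg P hP)),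
        ev_mul _ (hk1reg P hP) (hgreg P hP)]
      linear_combination hcond
    rw [hev]
    have h1 : ev P (hC.deg_one P) k₁ ∈ A :=
      hC.ev_mem (⟨val_le_one_iff.mp hk₁, hk1reg⟩ : k₁ ∈ discSub O cls d) hP
    have h2 : ev P (hC.deg_one P) (g - 1) ∈ A.nonunits :=
      hC.ev_mem_nonunits hg1 (fun P' hP' => sub_mem (hgreg P' hP') (one_mem _)) hP
    rw [ev_sub _ (hgreg P hP) (one_mem _), ev_one] at h2
    have h3 : ev P (hC.deg_one P) g - vv ∈ A.nonunits := by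
      have := sub_mem h2 hvv
      rwa [sub_sub_sub_cancel_right] at this
    show A.valuation (_ * _) < 1
    rw [map_mul, mul_comm]
    exact mul_lt_one_of_lt_of_le h3 ((A.valuation_le_one_iff _).mpr h1)

end Fermat.Agent.S18.H29
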