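/-
S18 / wave 4 (helper29): the count inside `F`, per-class inequality in Case B
(`h₀ + h₁ ∈ m_O`): uses an approximate `m`-th root of `u / g^m` on the class.
-/
import Fermat.Agent.S18.H29.ClassA

set_option autoImplicit false

open AlgebraicCurve

noncomputable section

namespace Fermat.Agent.S18.H29

open Fermat.Agent.S24 Finset

variable {K : Type*} [Field K] {A : ValuationSubring K} {F : Type*} [Field F] [Algebra K F]
  {O : ValuationSubring F} {𝔇 : Type*} {cls : Place K F → 𝔇} {x : F} {m : ℕ}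

/-- An approximate `m`-th root `Γ` of `u` on the class `d`, to the precision `c`. -/
theorem exists_class_root (hC : ClassHyp A O cls x m) (hm0 : m ≠ 0) (hmK : (m : K) ≠ 0)
    (hm : ((m : K))⁻¹ ∈ A) {u : F} (hu : IsOU O u) {d : 𝔇} {g : F} (hg1 : IsOU O g)
    (hg2 : ∀ P : Place K F, cls P = d → (m : ℤ) * P.ord g = P.ord u) {c : K} (hc : c ≠ 0) :
    ∃ G r : F, G ∈ discSub O cls d ∧ IsOU O G ∧ O.valuation r < 1 ∧
      (∀ P : Place K F, cls P = d → r ∈ P.toValuationSubring) ∧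
      (g * G) ^ m = u + algebraMap K F c * (g ^ m * r) := by
  have hg0 := hg1.ne_zero
  set ud : F := u / g ^ m with hud
  have hudou : IsOU O ud := hu.div (hg1.pow m)
  have hmz : (m : ℤ) ≠ 0 := by exact_mod_cast hm0
  have hudreg : ∀ P : Place K F, cls P = d → ud ∈ P.toValuationSubring := by
    intro P hP
    apply mem_of_ord_nonneg
    rw [hud, ord_div' P hu.ne_zero (pow_ne_zero _ hg0), ord_npow, hg2 P hP, sub_self]
  set w : F := ud - 1 with hw
  have hwv : O.valuation w < 1 := hudou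
  have hwreg : ∀ P : Place K F, cls P = d → w ∈ P.toValuationSubring := fun P hP =>
    sub_mem (hudreg P hP) (one_mem _)
  obtain ⟨N, ε, hε, hεreg, hwN⟩ := exists_prec hC hwv hwreg hc
  -- approximate root inside the ring `discSub O cls d`
  have hmF : (m : F) ≠ 0 := by
    have : (m : F) = algebraMap K F (m : K) := (map_natCast _ m).symm
    rw [this]; exact (map_ne_zero (algebraMap K F)).mpr hmK
  let wR : discSub O cls d := ⟨w, val_le_one_iff.mp hwv.le, hwreg⟩
  let minvR : discSub O cls d := ⟨algebraMap K F ((m : K))⁻¹, const_mem_discSub hC d hm⟩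
  have hinvR : ((m : ℕ) : discSub O cls d) * minvR = 1 := by
    apply Subtype.ext
    show ((m : ℕ) : F) * algebraMap K F ((m : K))⁻¹ = 1
    rw [map_inv₀, map_natCast]
    exact mul_inv_cancel₀ hmF
  obtain ⟨G'R, eR, hGR⟩ := exists_approx_root m hm0 minvR hinvR wR N
  have hG : (1 + w * (G'R : F)) ^ m = 1 + w + w ^ (N + 1) * (eR : F) := by
    have := congrArg Subtype.val hGR
    simpa [wR] using this
  refine ⟨1 + w * (G'R : F), ε * (eR : F), ?_, ?_, ?_, ?_, ?_⟩
  · exact add_mem (one_mem _) (mul_mem wR.2 G'R.2)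
  · apply isOU_one_add
    rw [map_mul]
    exact mul_lt_one_of_lt_of_le hwv (val_le_one_iff.mpr G'R.2.1)
  · rw [map_mul]
    exact mul_lt_one_of_lt_of_le hε (val_le_one_iff.mpr eR.2.1)
  · intro P hP
    exact mul_mem (hεreg P hP) (eR.2.2 P hP)
  · rw [mul_pow, hG, hwN, hw, hud]
    field_simp
    ring

/-- **Case B, per class.** -/
theorem classB (hC : ClassHyp A O cls x m) (hm0 : m ≠ 0) (hmK : (m : K) ≠ 0)
    (hm : ((m : K))⁻¹ ∈ A) (hx0 : x ≠ 0) (hxv : O.valuation x = 1)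
    (n : ℕ) {dinf : 𝔇} (hinf1 : ∀ P : Place K F, P.ord x < 0 → cls P = dinf)
    (hinf2 : ∀ P : Place K F, cls P = dinf → P.ord x ≤ 0)
    {u k₀ k₁ : F} (hu : IsOU O u) (hk₀ : O.valuation k₀ = 1) (hk₁ : O.valuation k₁ = 1)
    (hy : O.valuation (k₀ + k₁) < 1)
    (hQ0 : ∀ P : Place K F, (m : ℤ) * min 0 ((n : ℤ) * P.ord x) ≤ (m : ℤ) * P.ord k₀)
    (hP1 : k₁ ≠ 0 → ∀ P : Place K F,
      (m : ℤ) * min 0 ((n : ℤ) * P.ord x) ≤ (m : ℤ) * P.ord k₁ + ((1 : ℕ) : ℤ) * P.ord u)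
    {c : K} {N₀ : F} (hc0 : c ≠ 0) (hN₀ : O.valuation N₀ = 1)
    (hNm : k₀ ^ m - (-k₁) ^ m * u = algebraMap K F c * N₀)
    {d : 𝔇} {g : F} (hg1 : IsOU O g)
    (hg2 : ∀ P : Place K F, cls P = d → (m : ℤ) * P.ord g = P.ord u) :
    0 ≤ sg hC.prin cls (k₀ ^ m - (-k₁) ^ m * u) d - ((m : ℤ) - 1) * sg hC.prin cls k₀ d +
        (Finsupp.single dinf ((n : ℤ) * (degB (dv hC.prin x) : ℤ)) : 𝔇 →₀ ℤ) d ∧
    ∀ (_ : d ≠ dinf) (P : Place K F) (_ : cls P = d)
      (_ : ∀ P' : Place K F, cls P' = d → P'.ord u = 0) (vv : K) (_ : vv - 1 ∈ A.nonunits)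
      (_ : vv ^ m = ev P (hC.deg_one P) u)
      (_ : ev P (hC.deg_one P) k₀ + vv * ev P (hC.deg_one P) k₁ = 0),
      1 ≤ sg hC.prin cls (k₀ ^ m - (-k₁) ^ m * u) d - ((m : ℤ) - 1) * sg hC.prin cls k₀ d +
        (Finsupp.single dinf ((n : ℤ) * (degB (dv hC.prin x) : ℤ)) : 𝔇 →₀ ℤ) d := by
  have hg0 := hg1.ne_zero
  have hk₀0 : k₀ ≠ 0 := by rintro rfl; simp at hk₀
  have hk₁0 : k₁ ≠ 0 := by rintro rfl; simp at hk₁
  have hcF : algebraMap K F c ≠ 0 := by simpa using hc0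
  have hN₀0 : N₀ ≠ 0 := by rintro rfl; simp at hN₀
  obtain ⟨G, r, hGmem, hGou, hr, hrreg, hΓm⟩ := exists_class_root hC hm0 hmK hm hu hg1 hg2 hc0
  set Γ : F := g * G with hΓ
  have hΓou : IsOU O Γ := hg1.mul hGou
  set ξ := xi x n dinf d with hξ
  have hξ0 : ξ ≠ 0 := xi_ne_zero hx0 n dinf d
  have hξv : O.valuation ξ = 1 := val_xi hxv n dinf d
  -- regularity
  have hreg0 : ∀ P : Place K F, cls P = d → ξ * k₀ ∈ P.toValuationSubring :=
    xi_mul_mem hm0 hx0 n hinf1 hinf2 fun P _ => hQ0 P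
  have hreg1 : ∀ P : Place K F, cls P = d → ξ * (k₁ * g) ∈ P.toValuationSubring :=
    xi_mul_mem hm0 hx0 n hinf1 hinf2 (pole_mul_clear n hg0 hP1 hg2)
  set a : F := ξ * k₀ with ha
  set b : F := -(ξ * k₁ * Γ) with hb
  have hav : O.valuation a = 1 := by rw [ha, map_mul, hξv, hk₀, one_mul]
  have hbv : O.valuation b = 1 := by
    rw [hb, Valuation.map_neg, map_mul, map_mul, hξv, hk₁, hΓou.val, one_mul, one_mul]
  have ha0 : a ≠ 0 := mul_ne_zero hξ0 hk₀0
  have hHreg : ∀ P : Place K F, cls P = d → a - b ∈ P.toValuationSubring := by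
    intro P hP
    have : a - b = ξ * k₀ + ξ * (k₁ * g) * G := by rw [ha, hb, hΓ]; ring
    rw [this]
    exact add_mem (hreg0 P hP) (mul_mem (hreg1 P hP) (hGmem.2 P hP))
  have hba : O.valuation (b - a) < 1 := by
    have : b - a = -(ξ * ((k₀ + k₁) + k₁ * (Γ - 1))) := by rw [ha, hb]; ring
    rw [this, Valuation.map_neg, map_mul, hξv, one_mul]
    refine Valuation.map_add_lt _ hy ?_
    rw [map_mul, hk₁, one_mul]
    exact hΓou
  set Φ : F := ∑ i ∈ range m, a ^ i * b ^ (m - 1 - i) with hΦ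
  have hΦmul : Φ * (a - b) = a ^ m - b ^ m := geom_sum₂_mul a b m
  have hΦsub : O.valuation (Φ - (m : F) * a ^ (m - 1)) < 1 :=
    val_geom_sum₂_sub_lt O.valuation hav.le hbv.le hba m
  have hmF : (m : F) = algebraMap K F (m : K) := (map_natCast _ m).symm
  have hmv : O.valuation ((m : F)) = 1 := by
    rw [hmF]
    exact val_const_eq_one hC.mem_iff hmK (natCast_mem A m) hm
  have hmav : O.valuation ((m : F) * a ^ (m - 1)) = 1 := by
    rw [map_mul, map_pow, hmv, hav, one_pow, one_mul]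
  have hΦv : O.valuation Φ = 1 := val_eq_one_of_sub hmav hΦsub
  have hΦ0 : Φ ≠ 0 := by rintro h; rw [h] at hΦv; simp at hΦv
  -- the product
  set N₁ : F := N₀ - (-k₁) ^ m * (g ^ m * r) with hN₁
  have hN₁sub : O.valuation (N₁ - N₀) < 1 := by
    have : N₁ - N₀ = -((-k₁) ^ m * (g ^ m * r)) := by rw [hN₁]; ring
    rw [this]
    simp only [map_mul, map_pow, Valuation.map_neg, hk₁, hg1.val, one_pow, one_mul]
    exact hr
  have hN₁v : O.valuation N₁ = 1 := val_eq_one_of_sub hN₀ hN₁sub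
  have hN₁0 : N₁ ≠ 0 := by rintro h; rw [h] at hN₁v; simp at hN₁v
  have hprod : a ^ m - b ^ m = algebraMap K F c * (ξ ^ m * N₁) := by
    have hbm : b ^ m = ξ ^ m * ((-k₁) ^ m * Γ ^ m) := by
      have : b = ξ * (-k₁ * Γ) := by rw [hb]; ring
      rw [this, mul_pow, mul_pow]
    have ham : a ^ m = ξ ^ m * k₀ ^ m := by rw [ha, mul_pow]
    rw [hbm, ham, hΓm, hN₁]
    linear_combination ξ ^ m * hNm
  set H₁ : F := ξ ^ m * N₁ / Φ with hH₁
  have hH : a - b = algebraMap K F c * H₁ := by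
    rw [hH₁]
    field_simp
    rw [mul_comm, hΦmul, hprod]
    ring
  have hH₁v : O.valuation H₁ = 1 := by
    rw [hH₁, map_div₀, map_mul, map_pow, hξv, hN₁v, hΦv, one_pow, one_mul, div_one]
  have hH₁reg : ∀ P : Place K F, cls P = d → H₁ ∈ P.toValuationSubring := by
    intro P hP
    have : H₁ = algebraMap K F c⁻¹ * (a - b) := by rw [hH, map_inv₀]; field_simp
    rw [this]
    exact mul_mem (P.algebraMap_mem' _) (hHreg P hP)
  -- class degree of `H₁`
  have hm1 : ((m - 1 : ℕ) : ℤ) = (m : ℤ) - 1 := by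
    have : 1 ≤ m := Nat.one_le_iff_ne_zero.mpr hm0
    push_cast [Nat.cast_sub this]; ring
  have hsgN : sg hC.prin cls (k₀ ^ m - (-k₁) ^ m * u) d = sg hC.prin cls N₀ d := by
    rw [hNm, sg_mul hC.prin cls hcF hN₀0, sg_const, zero_add]
  have hsgΦ : sg hC.prin cls Φ d =
      ((m : ℤ) - 1) * (sg hC.prin cls ξ d + sg hC.prin cls k₀ d) := by
    have hmF0 : (m : F) ≠ 0 := by rw [hmF]; exact (map_ne_zero (algebraMap K F)).mpr hmK
    rw [hC.sg_congr hmav hΦsub, sg_mul hC.prin cls hmF0 (pow_ne_zero _ ha0), hmF, sg_const,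
      zero_add, sg_pow, ha, sg_mul hC.prin cls hξ0 hk₀0, hm1]
  have hsg : sg hC.prin cls H₁ d =
      sg hC.prin cls (k₀ ^ m - (-k₁) ^ m * u) d - ((m : ℤ) - 1) * sg hC.prin cls k₀ d +
        (Finsupp.single dinf ((n : ℤ) * (degB (dv hC.prin x) : ℤ)) : 𝔇 →₀ ℤ) d := by
    rw [hH₁, sg_div hC.prin cls (mul_ne_zero (pow_ne_zero _ hξ0) hN₁0) hΦ0,
      sg_mul hC.prin cls (pow_ne_zero _ hξ0) hN₁0, sg_pow, hC.sg_congr hN₀ hN₁sub, hsgΦ, hsgN,
      ← sg_xi hC n hinf1 hinf2 d]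
    ring
  refine ⟨?_, ?_⟩
  · rw [← hsg]
    exact sg_nonneg hC.prin cls fun P hP => H52.ord_nonneg_of_mem P (hH₁reg P hP)
  · intro hd P hP hu0 vv hvv hvvm hcond
    rw [← hsg]
    refine hC.one_le_sg_of_ev hH₁v hH₁reg hP ?_
    have hξ1 : ξ = 1 := xi_of_ne n hd
    have hmz : (m : ℤ) ≠ 0 := by exact_mod_cast hm0
    have hgord : ∀ P' : Place K F, cls P' = d → P'.ord g = 0 := by
      intro P' hP'
      have h1 := hg2 P' hP'
      rw [hu0 P' hP'] at h1
      exact (mul_eq_zero.mp h1).resolve_left hmz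
    have hgreg : ∀ P' : Place K F, cls P' = d → g ∈ P'.toValuationSubring := fun P' hP' =>
      mem_of_ord_nonneg P' (by rw [hgord P' hP'])
    have hΓreg : ∀ P' : Place K F, cls P' = d → Γ ∈ P'.toValuationSubring := fun P' hP' =>
      mul_mem (hgreg P' hP') (hGmem.2 P' hP')
    have hk0P : k₀ ∈ P.toValuationSubring := by
      have := hreg0 P hP
      rw [ha, hξ1, one_mul] at this
      exact this
    have hk1reg : ∀ P' : Place K F, cls P' = d → k₁ ∈ P'.toValuationSubring := by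
      intro P' hP'
      have h1 := hreg1 P' hP'
      rw [hξ1, one_mul] at h1
      have hginv : g⁻¹ ∈ P'.toValuationSubring :=
        mem_of_ord_nonneg P' (by rw [P'.ord_inv, hgord P' hP', neg_zero])
      have : k₁ = k₁ * g * g⁻¹ := by field_simp
      rw [this]
      exact mul_mem h1 hginv
    have hureg : ∀ P' : Place K F, cls P' = d → u ∈ P'.toValuationSubring := fun P' hP' =>
      mem_of_ord_nonneg P' (by rw [hu0 P' hP'])
    set eΓ := ev P (hC.deg_one P) Γ with heΓ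
    set e1 := ev P (hC.deg_one P) k₁ with he1
    -- value of `a - b`
    have hevH : ev P (hC.deg_one P) (a - b) = e1 * (eΓ - vv) := by
      have : a - b = k₀ + k₁ * Γ := by rw [ha, hb, hξ1]; ring
      rw [this, ev_add _ hk0P (mul_mem (hk1reg P hP) (hΓreg P hP)),
        ev_mul _ (hk1reg P hP) (hΓreg P hP)]
      linear_combination hcond
    -- `eΓ ^ m - vv ^ m = c * η`
    set η := ev P (hC.deg_one P) (g ^ m * r) with hη
    have hgr_reg : ∀ P' : Place K F, cls P' = d → g ^ m * r ∈ P'.toValuationSubring :=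
      fun P' hP' => mul_mem (pow_mem (hgreg P' hP') _) (hrreg P' hP')
    have hηmem : η ∈ A.nonunits := by
      refine hC.ev_mem_nonunits ?_ hgr_reg hP
      rw [map_mul, map_pow, hg1.val, one_pow, one_mul]
      exact hr
    have hpow : eΓ ^ m - vv ^ m = c * η := by
      rw [hvvm, heΓ, ← ev_pow _ (hΓreg P hP), hΓm,
        ev_add _ (hureg P hP) (mul_mem (P.algebraMap_mem' _) (hgr_reg P hP)),
        ev_const_mul _ _ (hgr_reg P hP)]
      ring
    have heΓ1 : eΓ - 1 ∈ A.nonunits := by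
      have := hC.ev_mem_nonunits hΓou (fun P' hP' => sub_mem (hΓreg P' hP') (one_mem _)) hP
      rwa [ev_sub _ (hΓreg P hP) (one_mem _), ev_one] at this
    have heΓv : A.valuation eΓ = 1 := by
      have := Valuation.map_one_add_of_lt (v := A.valuation) heΓ1
      rwa [add_sub_cancel] at this
    have hvvv : A.valuation vv = 1 := by
      have := Valuation.map_one_add_of_lt (v := A.valuation) hvv
      rwa [add_sub_cancel] at this
    have hdiff : A.valuation (vv - eΓ) < 1 := by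
      have := sub_mem hvv heΓ1
      rwa [sub_sub_sub_cancel_right] at this
    set κ : K := ∑ i ∈ range m, eΓ ^ i * vv ^ (m - 1 - i) with hκ
    have hκmul : κ * (eΓ - vv) = eΓ ^ m - vv ^ m := geom_sum₂_mul eΓ vv m
    have hκsub : A.valuation (κ - (m : K) * eΓ ^ (m - 1)) < 1 :=
      val_geom_sum₂_sub_lt A.valuation heΓv.le hvvv.le hdiff m
    have hmKv : A.valuation ((m : K)) = 1 :=
      (val_eq_one_iff hmK).mpr ⟨natCast_mem A m, hm⟩
    have hκv : A.valuation κ = 1 := by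
      refine val_eq_one_of_sub ?_ hκsub
      rw [map_mul, map_pow, hmKv, heΓv, one_pow, one_mul]
    have hκ0 : κ ≠ 0 := by rintro h; rw [h] at hκv; simp at hκv
    have hevH₁ : ev P (hC.deg_one P) H₁ = e1 * η / κ := by
      have h1 : H₁ = algebraMap K F c⁻¹ * (a - b) := by rw [hH, map_inv₀]; field_simp
      rw [h1, ev_const_mul _ _ (hHreg P hP), hevH]
      have h2 : eΓ - vv = c * η / κ := by
        rw [← hpow, ← hκmul]; field_simp
      rw [h2]
      field_simp
    rw [hevH₁]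
    have he1mem : e1 ∈ A :=
      hC.ev_mem (⟨val_le_one_iff.mp hk₁.le, hk1reg⟩ : k₁ ∈ discSub O cls d) hP
    show A.valuation (e1 * η / κ) < 1
    rw [map_div₀, hκv, div_one, map_mul, mul_comm]
    exact mul_lt_one_of_lt_of_le hηmem ((A.valuation_le_one_iff _).mpr he1mem)

end Fermat.Agent.S18.H29
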