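/-
S18 / wave 4 (helper29): THE COUNT INSIDE `F` (endgame of the abstract Theorem T).

`absT_of_classes`: let the places of `F/K` be partitioned into classes (`cls`; think: residue
discs of the base function `x`, `∞` included) such that (`ClassHyp`)
* one-units of `O` have degree `0` on every class,
* a one-unit whose orders on a class are divisible by `m` has there the divisor of `g^m` for a
  one-unit `g` (clearing),
* the poles of `x` lie in one class, on which `x` has no zeros,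
* places have degree one, principal divisors have degree `0`, `A` has rank one,
and let `V₀ ⊆ L(nB)`, `V₁ ⊆ L(nB + D)` (`B = (x)_∞`, `m D = div u`) be finite-dimensional with
`dim V₀ + dim V₁ ≥ n deg B + 2`.  Then the one-unit `u` (with `m ∣ ord_P u` for all `P`) is an
`m`-th power.  No special-fibre dimension count, no orthonormal bases, no Nullstellensatz, no
Kummer extension; `m` need not be prime.

Proof: choose `(h₀,h₁) ∈ V₀ × V₁`, not both zero, with `h₀(P_k) + v_k h₁(P_k) = 0` at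
`n deg B + 1` points in distinct classes (`v_k^m = u(P_k)`, `v_k ≡ 1`); count zeros and poles
class by class (`classA`, `classB`).
-/
import Fermat.Agent.S18.H29.ClassB

set_option autoImplicit false

open AlgebraicCurve

noncomputable section

namespace Fermat.Agent.S18.H29

open Fermat.Agent.S24 Finset

variable {K : Type*} [Field K] {A : ValuationSubring K} {F : Type*} [Field F] [Algebra K F]
  {O : ValuationSubring F}

variable (K) in
/-- `h ∈ L(n (x)_∞ + j D)` where `m D = div u` (guarded by `h ≠ 0`; same shape as `H74.DivCond`). -/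
def PoleCond (x : F) (m : ℕ) (u : F) (n : ℕ) (j : ℕ) (h : F) : Prop :=
  h ≠ 0 → ∀ P : Place K F,
    (m : ℤ) * min 0 ((n : ℤ) * P.ord x) ≤ (m : ℤ) * P.ord h + (j : ℤ) * P.ord u

/-- Evaluation at a place of degree one as a linear form on a space of functions regular there. -/
def evLin (P : Place K F) (hdeg : P.deg = 1) (V : Submodule K F)
    (hV : ∀ h ∈ V, h ∈ P.toValuationSubring) : V →ₗ[K] K where
  toFun h := ev P hdeg (h : F)
  map_add' a b := ev_add hdeg (hV a a.2) (hV b b.2)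
  map_smul' c a := by
    simp only [Submodule.coe_smul, RingHom.id_apply, Algebra.smul_def]
    exact ev_const_mul hdeg c (hV a a.2)

/-- **The count.** -/
theorem absT_of_classes [IsAlgClosed K] {𝔇 : Type*} {cls : Place K F → 𝔇} {x : F} {m : ℕ}
    (hC : ClassHyp A O cls x m) (hmK : (m : K) ≠ 0) (hm : ((m : K))⁻¹ ∈ A) (hx0 : x ≠ 0)
    {u : F} (hu : u - 1 ∈ O.nonunits) (hord : ∀ P : Place K F, (m : ℤ) ∣ P.ord u)
    (n : ℕ) (V₀ V₁ : Submodule K F) [FiniteDimensional K V₀] [FiniteDimensional K V₁]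
    (hV₀ : ∀ h ∈ V₀, PoleCond K x m u n 0 h) (hV₁ : ∀ h ∈ V₁, PoleCond K x m u n 1 h)
    (hdim : n * degB (dv hC.prin x) + 2 ≤ Module.finrank K V₀ + Module.finrank K V₁) :
    ∃ w : F, u = w ^ m := by
  classical
  by_contra hnot
  push Not at hnot
  have hm0 : m ≠ 0 := by rintro rfl; simp at hmK
  have hmpos : (0 : ℤ) < m := by exact_mod_cast Nat.pos_of_ne_zero hm0
  have huou : IsOU O u := hu
  have hu0 := huou.ne_zero
  have hxv : O.valuation x = 1 := (val_eq_one_iff hx0).mpr hC.x_unit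
  obtain ⟨dinf, hinf1, hinf2⟩ := hC.inf
  set dB := degB (dv hC.prin x) with hdB
  -- the special classes
  set bad : Finset 𝔇 := insert dinf ((dv hC.prin u).support.image cls) with hbad
  have hSinf : (Set.range cls \ (bad : Set 𝔇)).Infinite := hC.inf_classes.sdiff bad.finite_toSet
  obtain ⟨s, hsS, hscard⟩ := hSinf.exists_subset_card_eq (n * dB + 1)
  have hs_range : ∀ d : s, ∃ P : Place K F, cls P = (d : 𝔇) := fun d => (hsS d.2).1
  choose pt hpt using hs_range
  have hs_ne : ∀ d : s, (d : 𝔇) ≠ dinf := by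
    intro d h
    exact (hsS d.2).2 (by rw [h, hbad]; simp)
  have hs_u : ∀ d : s, ∀ P : Place K F, cls P = d → P.ord u = 0 := by
    intro d P hP
    by_contra hne
    apply (hsS d.2).2
    rw [hbad]
    refine Finset.mem_coe.mpr (Finset.mem_insert_of_mem (Finset.mem_image.mpr ⟨P, ?_, hP⟩))
    rw [Finsupp.mem_support_iff, dv_apply]; exact hne
  have hureg : ∀ d : s, ∀ P : Place K F, cls P = d → u ∈ P.toValuationSubring :=
    fun d P hP => mem_of_ord_nonneg P (by rw [hs_u d P hP])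
  have ha : ∀ d : s, ev (pt d) (hC.deg_one _) (u - 1) ∈ A.nonunits := fun d =>
    hC.ev_mem_nonunits huou (fun P hP => sub_mem (hureg d P hP) (one_mem _)) (hpt d)
  have hroot : ∀ d : s, ∃ t : K, t - 1 ∈ A.nonunits ∧
      t ^ m = 1 + ev (pt d) (hC.deg_one _) (u - 1) := fun d =>
    exists_root_one_add A m hm0 (ha d)
  choose vv hvv1 hvvm using hroot
  have hvvm' : ∀ d : s, vv d ^ m = ev (pt d) (hC.deg_one _) u := by
    intro d
    rw [hvvm d, ev_sub _ (hureg d _ (hpt d)) (one_mem _), ev_one]; ring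
  -- regularity of `V₀`, `V₁` at the special points
  have hxpt : ∀ d : s, 0 ≤ (pt d).ord x := by
    intro d
    by_contra hneg
    exact hs_ne d ((hpt d) ▸ hinf1 _ (not_le.mp hneg))
  have hV₀reg : ∀ d : s, ∀ h ∈ V₀, h ∈ (pt d).toValuationSubring := by
    intro d h hh
    rcases eq_or_ne h 0 with rfl | h0
    · exact zero_mem _
    have h1 := hV₀ h hh h0 (pt d)
    rw [min_eq_left (mul_nonneg (Int.natCast_nonneg n) (hxpt d))] at h1
    simp only [mul_zero, Nat.cast_zero, zero_mul, add_zero] at h1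
    exact mem_of_ord_nonneg _ (le_of_mul_le_mul_left (by simpa using h1) hmpos)
  have hV₁reg : ∀ d : s, ∀ h ∈ V₁, h ∈ (pt d).toValuationSubring := by
    intro d h hh
    rcases eq_or_ne h 0 with rfl | h0
    · exact zero_mem _
    have h1 := hV₁ h hh h0 (pt d)
    rw [min_eq_left (mul_nonneg (Int.natCast_nonneg n) (hxpt d)), hs_u d _ (hpt d)] at h1
    simp only [mul_zero, add_zero] at h1
    exact mem_of_ord_nonneg _ (le_of_mul_le_mul_left (by simpa using h1) hmpos)
  -- the linear conditions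
  let Φ : (V₀ × V₁) →ₗ[K] (s → K) := LinearMap.pi fun d =>
    (evLin (pt d) (hC.deg_one _) V₀ (hV₀reg d)).comp (LinearMap.fst K V₀ V₁) +
      (vv d) • (evLin (pt d) (hC.deg_one _) V₁ (hV₁reg d)).comp (LinearMap.snd K V₀ V₁)
  have hker : LinearMap.ker Φ ≠ ⊥ := by
    apply LinearMap.ker_ne_bot_of_finrank_lt
    rw [Module.finrank_prod, Module.finrank_fintype_fun_eq_card, Fintype.card_coe, hscard]
    omega
  obtain ⟨p, hpker, hp0⟩ := Submodule.exists_mem_ne_zero_of_ne_bot hker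
  have hcond0 : ∀ d : s, ev (pt d) (hC.deg_one _) (p.1 : F) +
      vv d * ev (pt d) (hC.deg_one _) (p.2 : F) = 0 := by
    intro d
    have := congrFun (LinearMap.mem_ker.mp hpker) d
    simpa [Φ, evLin] using this
  have hne : (p.1 : F) ≠ 0 ∨ (p.2 : F) ≠ 0 := by
    by_contra hcon
    push Not at hcon
    apply hp0
    exact Prod.ext (Subtype.ext hcon.1) (Subtype.ext hcon.2)
  -- scaling
  obtain ⟨c, hc0, hk0, hk1, hor⟩ := exists_scale_pair hC.scale hne
  set k₀ : F := algebraMap K F c * (p.1 : F) with hk₀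
  set k₁ : F := algebraMap K F c * (p.2 : F) with hk₁
  have hk₀V : k₀ ∈ V₀ := by
    have := V₀.smul_mem c p.1.2
    rwa [Algebra.smul_def] at this
  have hk₁V : k₁ ∈ V₁ := by
    have := V₁.smul_mem c p.2.2
    rwa [Algebra.smul_def] at this
  have hcond : ∀ d : s, ev (pt d) (hC.deg_one _) k₀ + vv d * ev (pt d) (hC.deg_one _) k₁ = 0 := by
    intro d
    rw [hk₀, hk₁, ev_const_mul _ _ (hV₀reg d _ p.1.2), ev_const_mul _ _ (hV₁reg d _ p.2.2)]
    linear_combination c * hcond0 d
  have hQ0 : ∀ P : Place K F, (m : ℤ) * min 0 ((n : ℤ) * P.ord x) ≤ (m : ℤ) * P.ord k₀ :=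
    pole_zero (u := u) n (hV₀ k₀ hk₀V)
  have hP1 : k₁ ≠ 0 → ∀ P : Place K F,
      (m : ℤ) * min 0 ((n : ℤ) * P.ord x) ≤ (m : ℤ) * P.ord k₁ + ((1 : ℕ) : ℤ) * P.ord u :=
    hV₁ k₁ hk₁V
  -- clearing functions
  have hcl : ∀ d : 𝔇, ∃ g : F, g - 1 ∈ O.nonunits ∧
      ∀ P : Place K F, cls P = d → (m : ℤ) * P.ord g = P.ord u :=
    fun d => hC.clear d u hu (fun P _ => hord P)
  choose g hg1 hg2 using hcl
  set Einf : 𝔇 →₀ ℤ := Finsupp.single dinf ((n : ℤ) * (dB : ℤ)) with hEinf
  by_cases hA : O.valuation (k₀ + k₁) = 1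
  · -- Case A
    set E : 𝔇 →₀ ℤ := Finsupp.mapDomain cls (dv hC.prin (k₀ + k₁)) + Einf with hE
    have hcA := fun d : 𝔇 => classA hC hm0 hx0 hxv n hinf1 hinf2 hk1 hA hQ0 hP1 (hg1 d) (hg2 d)
    have hE0 : ∀ d, 0 ≤ E d := fun d => by
      rw [hE, Finsupp.add_apply]; exact (hcA d).1
    have hE1 : ∀ d ∈ s, 1 ≤ E d := fun d hd => by
      rw [hE, Finsupp.add_apply]
      exact (hcA d).2 (hs_ne ⟨d, hd⟩) (pt ⟨d, hd⟩) (hpt ⟨d, hd⟩) (hs_u ⟨d, hd⟩) (vv ⟨d, hd⟩)
        (hvv1 ⟨d, hd⟩) (hcond ⟨d, hd⟩)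
    have h1 := card_le_tot E s hE0 hE1
    rw [hE, map_add, tot_mapDomain, tot_apply, dv_sum, hEinf, tot_single, hscard] at h1
    push_cast at h1
    omega
  · -- Case B
    have hlt : O.valuation (k₀ + k₁) < 1 :=
      lt_of_le_of_ne (Valuation.map_add_le _ hk0 hk1) hA
    have hk₀v : O.valuation k₀ = 1 := by
      rcases hor with h | h
      · exact h
      · have := Valuation.map_sub_eq_of_lt_right (v := O.valuation) (x := k₀ + k₁) (y := k₁)
          (by rw [h]; exact hlt)
        rwa [add_sub_cancel_right, h] at this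
    have hk₁v : O.valuation k₁ = 1 := by
      have := Valuation.map_sub_eq_of_lt_right (v := O.valuation) (x := k₀ + k₁) (y := k₀)
        (by rw [hk₀v]; exact hlt)
      rwa [add_sub_cancel_left, hk₀v] at this
    have hk₁0 : k₁ ≠ 0 := by rintro h; rw [h] at hk₁v; simp at hk₁v
    set Nm : F := k₀ ^ m - (-k₁) ^ m * u with hNmdef
    have hNm0 : Nm ≠ 0 := by
      intro h
      apply hnot (k₀ / (-k₁))
      rw [div_pow, eq_div_iff (pow_ne_zero _ (neg_ne_zero.mpr hk₁0))]
      linear_combination -h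
    have hNmv : O.valuation Nm < 1 := by
      have e : Nm = (k₀ ^ m - (-k₁) ^ m) + (-k₁) ^ m * (1 - u) := by rw [hNmdef]; ring
      rw [e]
      refine Valuation.map_add_lt _ ?_ ?_
      · refine val_pow_sub_pow_lt O.valuation ?_ hk₀v.le ?_ m
        · rw [Valuation.map_neg]; exact hk₁v.le
        · rw [sub_neg_eq_add]; exact hlt
      · rw [map_mul, map_pow, Valuation.map_neg, hk₁v, one_pow, one_mul, Valuation.map_sub_swap]
        exact huou
    obtain ⟨c', N₀, hc'0, -, hN₀, hNm⟩ := exists_small_scale hC.mem_iff hC.scale hNm0 hNmv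
    set E : 𝔇 →₀ ℤ := Finsupp.mapDomain cls (dv hC.prin Nm) -
      ((m : ℤ) - 1) • Finsupp.mapDomain cls (dv hC.prin k₀) + Einf with hE
    have hcB := fun d : 𝔇 => classB hC hm0 hmK hm hx0 hxv n hinf1 hinf2 huou hk₀v hk₁v hlt hQ0 hP1
      hc'0 hN₀ hNm (hg1 d) (hg2 d)
    have hEd : ∀ d, E d = sg hC.prin cls Nm d - ((m : ℤ) - 1) * sg hC.prin cls k₀ d + Einf d := by
      intro d
      rw [hE, Finsupp.add_apply, Finsupp.sub_apply, Finsupp.smul_apply, smul_eq_mul]
      rfl
    have hE0 : ∀ d, 0 ≤ E d := fun d => by rw [hEd]; exact (hcB d).1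
    have hE1 : ∀ d ∈ s, 1 ≤ E d := fun d hd => by
      rw [hEd]
      exact (hcB d).2 (hs_ne ⟨d, hd⟩) (pt ⟨d, hd⟩) (hpt ⟨d, hd⟩) (hs_u ⟨d, hd⟩) (vv ⟨d, hd⟩)
        (hvv1 ⟨d, hd⟩) (hvvm' ⟨d, hd⟩) (hcond ⟨d, hd⟩)
    have h1 := card_le_tot E s hE0 hE1
    rw [hE, map_add, map_sub, map_zsmul, tot_mapDomain, tot_mapDomain, tot_apply, tot_apply,
      dv_sum, dv_sum, hEinf, tot_single, hscard] at h1
    push_cast at h1
    simp only [smul_zero, sub_zero, zero_add] at h1
    omega

end Fermat.Agent.S18.H29
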