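/-
S18 / wave 4 (helper29): adapter, layer 1.  The count inside `F` (`absT_of_classes`) with its two
numerical inputs discharged:
* the degree of the polar divisor of `x` is `[F : K(x)]` (landed fundamental identity, `S24.H79`),
* the explicit subspaces of `L(n B + j D)` (landed `H22.exists_subspaces_core`).

Result: `ClassHyp` + `x` transcendental with `F / K(x)` finite  ⟹  the abstract Theorem T for the
exponent `m` (every one-unit with `m ∣ div` is an `m`-th power).
-/
import Fermat.Agent.S18.H29.Count
import Fermat.Agent.S18.H22.Subspaces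
import Fermat.Agent.S24.H79.Fib

set_option autoImplicit false

open AlgebraicCurve IntermediateField

noncomputable section

namespace Fermat.Agent.S18.H29

open Fermat.Agent.S24

variable {K : Type*} [Field K] {A : ValuationSubring K} {F : Type*} [Field F] [Algebra K F]
  {O : ValuationSubring F}

/-- The divisor of a function is determined by its values. -/
theorem dv_eq_of (hprin : ∀ f : F, f ≠ 0 → ∃ D : Place K F →₀ ℤ, (∀ P, D P = P.ord f) ∧
    (D.sum fun _ n => n) = 0) {f : F} {D : Place K F →₀ ℤ} (hD : ∀ P, D P = P.ord f) :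
    dv hprin f = D := by
  ext P
  rw [dv_apply, hD]

/-- The degree of the polar divisor of a transcendental `x` is `[F : K(x)]`. -/
theorem degB_dv_eq_finrank [IsAlgClosed K] [CharZero K]
    (hprin : ∀ f : F, f ≠ 0 → ∃ D : Place K F →₀ ℤ, (∀ P, D P = P.ord f) ∧
      (D.sum fun _ n => n) = 0) {x : F} (hx : Transcendental K x) [FiniteDimensional K⟮x⟯ F] :
    degB (dv hprin x) = Module.finrank K⟮x⟯ F := by
  classical
  have hxinv : Transcendental K x⁻¹ := fun h => hx (by simpa using h.inv)
  obtain ⟨s, hs, hsum⟩ := H79.exists_finset_ord_pos (K := K) (F := F) K⟮x⟯ x⁻¹ hxinv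
    (H22.adjoin_simple_inv_eq x)
  have hcast : ((degB (dv hprin x) : ℕ) : ℤ) = ∑ P ∈ s, P.ord x⁻¹ := by
    unfold degB
    rw [Finsupp.sum, Nat.cast_sum]
    have hsub : s ⊆ (dv hprin x).support := by
      intro P hP
      rw [Finsupp.mem_support_iff, dv_apply]
      have := (hs P).mp hP
      rw [P.ord_inv] at this
      omega
    rw [← Finset.sum_subset hsub]
    · refine Finset.sum_congr rfl fun P hP => ?_
      have := (hs P).mp hP
      rw [dv_apply, P.ord_inv] at *
      rw [Int.toNat_of_nonneg (le_max_left _ _), max_eq_right (by omega)]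
    · intro P _ hPs
      have := (hs P).not.mp hPs
      rw [dv_apply]
      rw [P.ord_inv] at this
      rw [max_eq_left (by omega)]
      rfl
  exact_mod_cast hcast.trans hsum

/-- **Layer 1 of the adapter**: the abstract Theorem T for the exponent `m` from `ClassHyp`. -/
theorem absT_of_classHyp [IsAlgClosed K] [CharZero K] {𝔇 : Type*} {cls : Place K F → 𝔇}
    {x : F} {m : ℕ} (hC : ClassHyp A O cls x m) (hm0 : m ≠ 0) (hm : ((m : K))⁻¹ ∈ A)
    (hx : Transcendental K x) [FiniteDimensional K⟮x⟯ F]
    (u : F) (hu : u - 1 ∈ O.nonunits) (hord : ∀ P : Place K F, (m : ℤ) ∣ P.ord u) :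
    ∃ w : F, u = w ^ m := by
  have hmK : (m : K) ≠ 0 := Nat.cast_ne_zero.mpr hm0
  have hx0 : x ≠ 0 := by
    rintro rfl
    exact hx isAlgebraic_zero
  have hu0 : u ≠ 0 := (show IsOU O u from hu).ne_zero
  obtain ⟨c, hc⟩ := H22.exists_subspaces_core (K := K) x hx m u hu0
  obtain ⟨V, hVfd, hcond, hdim⟩ := hc (2 * c + 2)
  have : FiniteDimensional K V := hVfd
  have hμ : 0 < Module.finrank K⟮x⟯ F := Module.finrank_pos
  refine absT_of_classes hC hmK hm hx0 hu hord (2 * c + 2) V V ?_ ?_ ?_
  · intro h hh hh0 P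
    exact hcond h hh hh0 0 (Nat.zero_le m) P
  · intro h hh hh0 P
    exact hcond h hh hh0 1 (Nat.one_le_iff_ne_zero.mpr hm0) P
  · rw [degB_dv_eq_finrank hC.prin hx]
    nlinarith [hdim, hμ]

end Fermat.Agent.S18.H29
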