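/-
S18 / wave 4 (helper29): adapter, layer 2.  `ClassHyp` for a class map
`cls : Place K F → Option κ` whose classes are the residue discs of the base function `x`
(`some (res b)` = the disc of `b ∈ A`, `none` = the disc at infinity `InDisc A x⁻¹ 0`), from the
disc forms of the two local leaves:
* clearing on a disc (leaf C1, `H74.ClearStatement` for `x` and for `x⁻¹`),
* one-units have degree `0` on a disc (leaf C1-ONE, `sum_ord_eq_zero_of_oneUnit`).
-/
import Fermat.Agent.S18.H29.Adapter
import Fermat.Agent.S18.H74.CoreDefs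
import Fermat.Agent.S24.Residue

set_option autoImplicit false

open AlgebraicCurve IntermediateField

noncomputable section

namespace Fermat.Agent.S18.H29

open Fermat.Agent.S24

variable {K : Type*} [Field K] {A : ValuationSubring K} {F : Type*} [Field F] [Algebra K F]
  {O : ValuationSubring F}

/-- The class degree of a divisor vanishes as soon as it vanishes on a finite set of places of
the class containing the support. -/
theorem mapDomain_eq_zero_of_finset {𝔇 : Type*} (cls : Place K F → 𝔇) (D : Place K F →₀ ℤ)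
    (d : 𝔇) (s : Finset (Place K F)) (hs1 : ∀ P ∈ s, cls P = d)
    (hs2 : ∀ P, cls P = d → D P ≠ 0 → P ∈ s) (hsum : ∑ P ∈ s, D P = 0) :
    Finsupp.mapDomain cls D d = 0 := by
  classical
  rw [Finsupp.mapDomain, Finsupp.sum, Finsupp.finsetSum_apply]
  have h1 : ∀ P ∈ D.support, (Finsupp.single (cls P) (D P)) d = if cls P = d then D P else 0 :=
    fun P _ => Finsupp.single_apply
  rw [Finset.sum_congr rfl h1, ← Finset.sum_filter, ← hsum]
  refine Finset.sum_subset ?_ ?_
  · intro P hP
    rw [Finset.mem_filter, Finsupp.mem_support_iff] at hP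
    exact hs2 P hP.2 hP.1
  · intro P hPs hPf
    by_contra h0
    exact hPf (Finset.mem_filter.mpr ⟨Finsupp.mem_support_iff.mpr h0, hs1 P hPs⟩)

/-- The statement of the leaf C1-ONE for the base function `x` (all residue discs `b + m_A`,
`b ∈ A`): a one-unit has as many zeros as poles on a residue disc.
(The conclusion of `H18.sum_ord_eq_zero_of_oneUnit_of_inputs`.) -/
def OneDisc (A : ValuationSubring K) (O : ValuationSubring F) (x : F) : Prop :=
  ∀ b ∈ A, ∀ y : F, y - 1 ∈ O.nonunits →
    ∃ s : Finset (Place K F), (∀ P ∈ s, H74.InDisc A x b P) ∧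
      (∀ P : Place K F, H74.InDisc A x b P → P.ord y ≠ 0 → P ∈ s) ∧ ∑ P ∈ s, P.ord y = 0

/-- The statement of the leaf C1 for the base function `x` (unfolded `H74.ClearStatement`). -/
def ClearDisc (A : ValuationSubring K) (O : ValuationSubring F) (x : F) (m : ℕ) : Prop :=
  ∀ b ∈ A, ∀ u : F, u - 1 ∈ O.nonunits →
    (∀ P : Place K F, H74.InDisc A x b P → (m : ℤ) ∣ P.ord u) →
    ∃ g : F, g - 1 ∈ O.nonunits ∧
      ∀ P : Place K F, H74.InDisc A x b P → (m : ℤ) * P.ord g = P.ord u

/-- **Layer 2 of the adapter**: `ClassHyp` for a class map whose classes are the residue discs. -/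
theorem classHyp_of_discs {κ : Type*} {cls : Place K F → Option κ} {res : A → κ} {x : F} {m : ℕ}
    (hres : Function.Surjective res)
    (hsome : ∀ (b : K) (hb : b ∈ A) (P : Place K F),
      cls P = some (res ⟨b, hb⟩) ↔ H74.InDisc A x b P)
    (hnone : ∀ P : Place K F, cls P = none ↔ H74.InDisc A x⁻¹ 0 P)
    (hinf : (Set.range cls).Infinite)
    (hmem : ∀ a : K, algebraMap K F a ∈ O ↔ a ∈ A)
    (hscale : ∀ f : F, f ≠ 0 → ∃ c : K, c ≠ 0 ∧ algebraMap K F c * f ∈ O ∧
      (algebraMap K F c * f)⁻¹ ∈ O)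
    (harch : ∀ a c : K, a ∈ A.nonunits → c ≠ 0 → ∃ n : ℕ, a ^ n * c⁻¹ ∈ A)
    (hdeg : ∀ P : Place K F, P.deg = 1)
    (hprin : ∀ f : F, f ≠ 0 → ∃ D : Place K F →₀ ℤ, (∀ P, D P = P.ord f) ∧
      (D.sum fun _ n => n) = 0)
    (hxO : x ∈ O ∧ x⁻¹ ∈ O)
    (hclear : ClearDisc A O x m) (hclear' : ClearDisc A O x⁻¹ m)
    (hone : OneDisc A O x) (hone' : OneDisc A O x⁻¹) :
    ClassHyp A O cls x m where
  mem_iff := hmem
  scale := hscale
  arch := harch
  deg_one := hdeg
  prin := hprin
  inf_classes := hinf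
  x_unit := hxO
  one := by
    intro y hy D hD d
    rcases d with _ | k
    · obtain ⟨s, hs1, hs2, hs3⟩ := hone' 0 A.zero_mem y hy
      refine mapDomain_eq_zero_of_finset cls D none s (fun P hP => (hnone P).mpr (hs1 P hP))
        (fun P hP h0 => hs2 P ((hnone P).mp hP) (by rwa [← hD])) ?_
      rw [← hs3]
      exact Finset.sum_congr rfl fun P _ => hD P
    · obtain ⟨⟨b, hb⟩, rfl⟩ := hres k
      obtain ⟨s, hs1, hs2, hs3⟩ := hone b hb y hy
      refine mapDomain_eq_zero_of_finset cls D _ s (fun P hP => (hsome b hb P).mpr (hs1 P hP))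
        (fun P hP h0 => hs2 P ((hsome b hb P).mp hP) (by rwa [← hD])) ?_
      rw [← hs3]
      exact Finset.sum_congr rfl fun P _ => hD P
  clear := by
    intro d u hu hdvd
    rcases d with _ | k
    · obtain ⟨g, hg1, hg2⟩ := hclear' 0 A.zero_mem u hu
        (fun P hP => hdvd P ((hnone P).mpr hP))
      exact ⟨g, hg1, fun P hP => hg2 P ((hnone P).mp hP)⟩
    · obtain ⟨⟨b, hb⟩, rfl⟩ := hres k
      obtain ⟨g, hg1, hg2⟩ := hclear b hb u hu (fun P hP => hdvd P ((hsome b hb P).mpr hP))
      exact ⟨g, hg1, fun P hP => hg2 P ((hsome b hb P).mp hP)⟩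
  inf := by
    refine ⟨none, fun P hP => (hnone P).mpr ⟨0, ?_, ?_⟩, fun P hP => ?_⟩
    · rw [sub_zero, ValuationSubring.mem_nonunits_iff_or]
      left; rfl
    · rw [map_zero, sub_zero, P.ord_inv]
      omega
    · obtain ⟨c, -, hc⟩ := (hnone P).mp hP
      by_contra hpos
      have hpos' : P.ord x⁻¹ < 0 := by
        rw [P.ord_inv]; omega
      exact not_center_of_pole x⁻¹ P hpos' c hc

end Fermat.Agent.S18.H29
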