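/-
S18 / wave 4 (helper29): adapter, final layer (primary endgame of the abstract Theorem T).

  `absT_of_clear`      : abstract Theorem T (`H74.AbsTStatement`, any exponent `m ≠ 0` with
                         `m⁻¹ ∈ A`)  ⟸  `H74.ClearStatement` for `x` and for `x⁻¹` (leaf C1) ALONE,
                         by the count inside `F` (`absT_of_classes`), with the class map
                         `H38.cls` (residue discs), the landed leaf C1-ONE
                         (`H18.sum_ord_eq_zero_of_oneUnit`), the landed exports `H38` and the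
                         landed subspaces `H22.exists_subspaces_core`.
  `s18_of_setup_clear` : S18  ⟸  `H74.SetupStatement` (bridge B7) + `H74.ClearStatement` (C1).
-/
import Fermat.Agent.S18.H29.Discs
import Fermat.Agent.S18.H38.Exports
import Fermat.Agent.S18.H18.OneUnitLeaf
import Fermat.Agent.S18.H74.Assembly2

set_option autoImplicit false

open AlgebraicCurve IntermediateField ModularCurve

noncomputable section

namespace Fermat.Agent.S18.H29

open Fermat.Agent.S18.H74

section Abstract

variable {K : Type*} [Field K] {A : ValuationSubring K} {F : Type*} [Field F] [Algebra K F]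
  {O : ValuationSubring F} {x : F}

/-- The hypotheses of the count for the residue-disc classes of a `Setup`, from the clearing
lemma (leaf C1) for `x` and `x⁻¹`. -/
theorem classHyp_of_setup [IsAlgClosed K] [CharZero K] (hA : A ≠ ⊤)
    (harch : ∀ a c : K, a ∈ A.nonunits → c ≠ 0 → ∃ n : ℕ, a ^ n * c⁻¹ ∈ A)
    (hS : Setup K A F O x) (m : ℕ)
    (hclear : ClearStatement K A F O x m) (hclear' : ClearStatement K A F O x⁻¹ m) :
    ClassHyp A O (H38.cls (F := F) A x) x m := by
  have := hS.finite
  have hS' : Setup K A F O x⁻¹ := H64.setup_inv hS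
  exact classHyp_of_discs (res := IsLocalRing.residue A) IsLocalRing.residue_surjective
    (fun b hb P => H38.cls_eq_some_iff A x hb P) (fun P => H38.cls_eq_none_iff A x P)
    (H38.range_cls_infinite_of_setup hA hS) hS.mem_iff hS.scale harch
    (fun P => H38.deg_one_of_setup hS P) (fun f hf => H38.prin_of_setup hS hf)
    (H38.x_unit_of_setup hS) hclear hclear'
    (fun b hb y hy => H18.sum_ord_eq_zero_of_oneUnit hA hS b hb y hy)
    (fun b hb y hy => H18.sum_ord_eq_zero_of_oneUnit hA hS' b hb y hy)

/-- **Primary endgame**: the abstract Theorem T for the exponent `m` from the clearing lemma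
(leaf C1) for `x` and for `x⁻¹`. -/
theorem absT_of_clear [IsAlgClosed K] [CharZero K] (hA : A ≠ ⊤)
    (harch : ∀ a c : K, a ∈ A.nonunits → c ≠ 0 → ∃ n : ℕ, a ^ n * c⁻¹ ∈ A)
    (hS : Setup K A F O x) (m : ℕ) (hm0 : m ≠ 0) (hm : ((m : K))⁻¹ ∈ A)
    (hclear : ClearStatement K A F O x m) (hclear' : ClearStatement K A F O x⁻¹ m) :
    AbsTStatement K F O m := by
  intro u hu hord
  have := hS.finite
  exact absT_of_classHyp (classHyp_of_setup hA harch hS m hclear hclear') hm0 hm
    (H38.transcendental_of_setup hA hS) u hu hord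

end Abstract

/-- **S18 from the bridge (B7) and the clearing lemma (C1)**, by the count inside `F`. -/
theorem s18_of_setup_clear (N : ℕ) [NeZero N] {ℓ : ℕ} [Fact ℓ.Prime]
    (A : ValuationSubring (AlgebraicClosure ℚ)) (hA : A.LiesOverPrime ℓ)
    (h : ModularCurve.ReductionInputsModL A N)
    (hsetup : ∀ p : ℕ, p.Prime → p ≠ ℓ → SetupStatement N A p)
    (hclear : ∀ (N' : ℕ) (O : ValuationSubring (FN N')) (x : FN N'), Setup Kb A (FN N') O x →
      ∀ m : ℕ, m ≠ 0 → ClearStatement Kb A (FN N') O x m)
    (m : ℕ) (hm : ¬ ℓ ∣ m) (z : ModularCurve.JZero N)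
    (hmz : m • z = 0) (hz : ModularCurve.reductionModL A N z = 0) : z = 0 := by
  refine s18_of_setup_absT N A h hsetup (fun p hp hpℓ N' O x hS => ?_) m hm z hmz hz
  have hm' : ¬ ℓ ∣ p := fun h => hpℓ ((Nat.prime_dvd_prime_iff_eq Fact.out hp).mp h).symm
  obtain ⟨hAtop, hp0, hpA, harch⟩ := H60.unit_facts A hA p hm'
  exact absT_of_clear hAtop harch hS p hp0 hpA (hclear N' O x hS p hp0)
    (hclear N' O x⁻¹ (H64.setup_inv hS) p hp0)

end Fermat.Agent.S18.H29
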