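/-
S18 / wave 4 (helper29): the abstract Theorem T, UNCONDITIONAL (export for the programs built on
top of Program J, e.g. S37 needs it at the auxiliary level for the SAME `(O, x)`).

  `absT_of_setup`  : `Setup K A F O x`, `A ≠ ⊤` of rank one, `m ≠ 0`, `m⁻¹ ∈ A`
                     ⟹ `H74.AbsTStatement K F O m`
                     (every one-unit of `O` whose divisor is divisible by `m` is an `m`-th power)
  `absT_modular`   : the same over `ℚ̄` for a place `A` above `ℓ` and every `m` prime to `ℓ`.

Proof: the count inside `F` (`absT_of_clear`) fed with the landed clearing lemma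
`H49.exists_clear` (Key Lemma + tubes) for `x` and for `x⁻¹`.  No primality of `m` is needed.
-/
import Fermat.Agent.S18.H29.Final
import Fermat.Agent.S18.H49.C1Final

set_option autoImplicit false

open AlgebraicCurve IntermediateField ModularCurve

noncomputable section

namespace Fermat.Agent.S18.H29

open Fermat.Agent.S18.H74

section Abstract

variable {K : Type*} [Field K] {A : ValuationSubring K} {F : Type*} [Field F] [Algebra K F]
  {O : ValuationSubring F} {x : F}

/-- The clearing lemma in the shape `H74.ClearStatement` (landed `H49.exists_clear`). -/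
theorem clearStatement_of_setup [IsAlgClosed K] [CharZero K] (hA : A ≠ ⊤)
    (hS : Setup K A F O x) (m : ℕ) (hm0 : m ≠ 0) : ClearStatement K A F O x m :=
  fun b hb u hu hord => Fermat.Agent.S18.H49.exists_clear hA hS b hb m hm0 u hu hord

/-- **The abstract Theorem T** for every exponent `m ≠ 0` invertible in `A`. -/
theorem absT_of_setup [IsAlgClosed K] [CharZero K] (hA : A ≠ ⊤)
    (harch : ∀ a c : K, a ∈ A.nonunits → c ≠ 0 → ∃ n : ℕ, a ^ n * c⁻¹ ∈ A)
    (hS : Setup K A F O x) (m : ℕ) (hm0 : m ≠ 0) (hm : ((m : K))⁻¹ ∈ A) :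
    AbsTStatement K F O m :=
  absT_of_clear hA harch hS m hm0 hm (clearStatement_of_setup hA hS m hm0)
    (clearStatement_of_setup hA (Fermat.Agent.S18.H64.setup_inv hS) m hm0)

end Abstract

/-- **The abstract Theorem T over `ℚ̄`** for a place `A` above `ℓ` and every exponent prime to
`ℓ`, in any `Setup` on a modular function field. -/
theorem absT_modular {ℓ : ℕ} [Fact ℓ.Prime] (A : ValuationSubring (AlgebraicClosure ℚ))
    (hA : A.LiesOverPrime ℓ) (N' : ℕ) (O : ValuationSubring (FN N')) (x : FN N')
    (hS : Setup Kb A (FN N') O x) (m : ℕ) (hm : ¬ ℓ ∣ m) :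
    AbsTStatement Kb (FN N') O m := by
  obtain ⟨hAtop, hm0, hmA, harch⟩ := Fermat.Agent.S18.H60.unit_facts A hA m hm
  exact absT_of_setup hAtop harch hS m hm0 hmA

end Fermat.Agent.S18.H29
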